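import Mathlib
import Fermat.Prelude.Def_GroupCohomology_ContinuousUnramified
import Fermat.Agent.Lib.InertiaGlue
import Fermat.Agent.Lib.InertiaLift
import Fermat.Agent.S05.Inertia

set_option autoImplicit false

open IsDedekindDomain HeightOneSpectrum NumberField

namespace Fermat.Agent.CFT.Fin

/-- The algebraic closure of `ℚ`. -/
abbrev Qb := AlgebraicClosure ℚ

/-- The absolute Galois group of `ℚ`. -/
abbrev GQ := Qb ≃ₐ[ℚ] Qb

/-- `Q̄/ℚ` is normal. -/
theorem normal_Qb : Normal ℚ Qb :=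
  haveI : Algebra.IsAlgebraic ℚ Qb := AlgebraicClosure.isAlgebraic ℚ
  haveI : IsAlgClosure ℚ Qb := ⟨inferInstance, inferInstance⟩
  IsAlgClosure.normal ℚ Qb

attribute [local instance] normal_Qb

section Conj

/-- Membership in the nonunits of a pulled-back valuation subring. -/
theorem mem_nonunits_comap_iff (A : ValuationSubring Qb) (τ : GQ) (x : Qb) :
    x ∈ (A.comap (τ : Qb →+* Qb)).nonunits ↔ τ x ∈ A.nonunits := by
  have key : ∀ (B : ValuationSubring Qb) (y : Qb), y ∈ B.nonunits ↔ y = 0 ∨ y⁻¹ ∉ B := by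
    intro B y
    have h := B.inv_mem_nonunits_iff (x := y⁻¹)
    rw [inv_inv, inv_eq_zero] at h
    exact h
  rw [key, key]
  constructor
  · rintro (h | h)
    · left; rw [h, map_zero]
    · right
      intro h'
      apply h
      show τ x⁻¹ ∈ A
      rw [map_inv₀]
      exact h'
  · rintro (h | h)
    · left
      exact (map_eq_zero τ).mp h
    · right
      intro h'
      apply h
      have : τ x⁻¹ ∈ A := h'
      rwa [map_inv₀] at this

/-- Conjugating the inertia group: `σ ∈ I_A ⟹ τ⁻¹ σ τ ∈ I_{τ⁻¹ A}`. -/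
theorem conj_mem_inertia_comap (A : ValuationSubring Qb) (τ σ : GQ)
    (hσ : σ ∈ A.inertiaSubgroupIn ℚ) :
    τ⁻¹ * σ * τ ∈ (A.comap (τ : Qb →+* Qb)).inertiaSubgroupIn ℚ := by
  apply Fermat.Agent.Lib.InertiaLift.mem_inertiaSubgroupIn_of_sub_mem
  intro x hx
  have hx' : τ x ∈ A := hx
  have h1 := Fermat.Agent.S05.Inertia.sub_mem_nonunits A hσ hx'
  rw [mem_nonunits_comap_iff]
  have h2 : τ ((τ⁻¹ * σ * τ) x - x) = σ (τ x) - τ x := by
    rw [map_sub]
    congr 1
    show τ (τ⁻¹ (σ (τ x))) = σ (τ x)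
    exact τ.apply_symm_apply _
  rw [h2]
  exact h1

/-- A conjugate of a field unramified outside `S` is unramified outside `S`. -/
theorem isUnramifiedOutside_map {S : Finset Nat.Primes} {F : IntermediateField ℚ Qb}
    (hF : F.IsUnramifiedOutside S) (τ : GQ) :
    (F.map (τ : Qb →ₐ[ℚ] Qb)).IsUnramifiedOutside S := by
  have := hF.1
  refine ⟨?_, fun q hq A hA σ hσ => ?_⟩
  · exact LinearEquiv.finiteDimensional (F.equivMap (τ : Qb →ₐ[ℚ] Qb)).toLinearEquiv
  · have hA' : (A.comap (τ : Qb →+* Qb)).LiesOverPrime (q : ℕ) := by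
      show ((q : ℕ) : Qb) ∈ (A.comap (τ : Qb →+* Qb)).nonunits
      rw [mem_nonunits_comap_iff, map_natCast]
      exact hA
    have h1 := hF.2 q hq _ hA' (conj_mem_inertia_comap A τ σ hσ)
    rw [IntermediateField.mem_fixingSubgroup_iff] at h1 ⊢
    rintro _ ⟨y, hy, rfl⟩
    have h2 := h1 y hy
    have h3 : (τ⁻¹ * σ * τ) y = τ⁻¹ (σ (τ y)) := rfl
    rw [h3] at h2
    have h4 := congrArg τ h2
    rw [show τ (τ⁻¹ (σ (τ y))) = σ (τ y) from τ.apply_symm_apply _] at h4
    exact h4

/-- The normal closure of a field unramified outside `S` is unramified outside `S`. -/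
theorem isUnramifiedOutside_normalClosure {S : Finset Nat.Primes} {F : IntermediateField ℚ Qb}
    (hF : F.IsUnramifiedOutside S) :
    (IntermediateField.normalClosure ℚ F Qb).IsUnramifiedOutside S := by
  have := hF.1
  refine ⟨inferInstance, fun q hq A hA => ?_⟩
  rw [← IntermediateField.le_iff_le]
  refine (IntermediateField.normalClosure_def'' (F := ℚ) (L := Qb) F).le.trans ?_
  rw [iSup_le_iff]
  intro τ
  rw [IntermediateField.le_iff_le]
  exact (isUnramifiedOutside_map hF τ).2 q hq A hA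

end Conj

open Fermat.Agent.Lib.InertiaGlue in
/-- **Unramified at finite level.** If the inertia group of `A` fixes the finite Galois
extension `F` of `ℚ`, the prime of `F` below `A` has ramification index one. -/
theorem ramificationIdx_primeBelow_eq_one (F : IntermediateField ℚ Qb) [FiniteDimensional ℚ F]
    [IsGalois ℚ F] (A : ValuationSubring Qb) (q : ℕ) (hq : q.Prime) (hAq : A.LiesOverPrime q)
    (hA : A.inertiaSubgroupIn ℚ ≤ F.fixingSubgroup) :
    (primeBelow F A).ramificationIdx ℤ = 1 := by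
  have : NumberField F := ⟨⟩
  have hqP : (q : 𝓞 F) ∈ primeBelow F A := by
    rw [mem_primeBelow]
    have hA' : ((q : ℕ) : Qb) ∈ A.nonunits := hAq
    simpa using hA'
  have : Fact q.Prime := ⟨hq⟩
  let _ : MulSemiringAction Gal(F/ℚ) (𝓞 F) := IsIntegralClosure.MulSemiringAction ℤ ℚ F (𝓞 F)
  have := IsGaloisGroup.of_isFractionRing Gal(F/ℚ) ℤ (𝓞 F) ℚ F
  have h2 : ((primeBelow F A).under ℤ).ramificationIdxIn (𝓞 F) =
      (primeBelow F A).ramificationIdx ℤ :=
    Ideal.ramificationIdxIn_eq_ramificationIdx ((primeBelow F A).under ℤ) (primeBelow F A)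
      Gal(F/ℚ)
  have h3 : Nat.card (Ideal.inertia Gal(F/ℚ) (primeBelow F A)) =
      ((primeBelow F A).under ℤ).ramificationIdxIn (𝓞 F) :=
    Ideal.card_inertia_eq_ramificationIdxIn ((primeBelow F A).under ℤ) (primeBelow F A)
  have h4 : Ideal.inertia Gal(F/ℚ) (primeBelow F A) = ⊥ := by
    rw [Subgroup.eq_bot_iff_forall]
    intro τ hτ
    have hτ' : ∀ x : F, IsIntegral ℤ x → ((τ x : F) : Qb) - (x : Qb) ∈ A.nonunits := by
      intro x hx
      obtain ⟨y, rfl⟩ := (IsIntegralClosure.isIntegral_iff (A := 𝓞 F)).mp hx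
      have h5 : τ • y - y ∈ primeBelow F A := hτ y
      rw [mem_primeBelow] at h5
      have h6 : algebraMap (𝓞 F) F (τ • y) = τ (algebraMap (𝓞 F) F y) :=
        algebraMap_galRestrict_apply ℤ τ y
      rw [map_sub, h6] at h5
      exact h5
    obtain ⟨σ, hσ, hστ⟩ := Fermat.Agent.Lib.InertiaLift.exists_inertia_lift F A τ hτ'
    have hσF := hA hσ
    rw [IntermediateField.mem_fixingSubgroup_iff] at hσF
    ext x
    show ((τ x : F) : Qb) = (x : Qb)
    rw [← hστ x]
    exact hσF x x.2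
  rw [← h2, ← h3, h4, Subgroup.card_bot]

section ValCompare

open Fermat.Agent.Lib.InertiaGlue WithZero

variable (K : IntermediateField ℚ Qb) [NumberField K] (A : ValuationSubring Qb)
  (v : HeightOneSpectrum (𝓞 K))

omit [NumberField K] in
/-- Algebraic integers have valuation at most one. -/
theorem val_integer_le_one (y : 𝓞 K) : A.valuation (((y : K) : Qb)) ≤ 1 := by
  rw [ValuationSubring.valuation_le_one_iff]
  exact (toValuationSubring K A y).2

variable {K A v}

/-- If `v` is contained in the centre of `A`, elements outside `v` are `A`-units. -/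
theorem val_eq_one_of_notMem (hv : ∀ y ∈ v.asIdeal, (((y : K) : Qb)) ∈ A.nonunits)
    {y : 𝓞 K} (hy : y ∉ v.asIdeal) : A.valuation (((y : K) : Qb)) = 1 := by
  refine le_antisymm (val_integer_le_one K A y) (not_lt.mp fun hlt => hy ?_)
  have hle : v.asIdeal ≤ primeBelow K A := fun z hz => (mem_primeBelow K A z).mpr (hv z hz)
  have hne : primeBelow K A ≠ ⊤ := Ideal.IsPrime.ne_top inferInstance
  have heq : v.asIdeal = primeBelow K A := v.isMaximal.eq_of_le hne hle
  rw [heq, mem_primeBelow, ValuationSubring.mem_nonunits_iff]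
  exact hlt

/-- `v`-integral elements of `K` are `A`-integral. -/
theorem val_le_one_of_valuation_le_one (hv : ∀ y ∈ v.asIdeal, (((y : K) : Qb)) ∈ A.nonunits)
    {x : K} (hx : v.valuation K x ≤ 1) : A.valuation ((x : Qb)) ≤ 1 := by
  obtain ⟨n, d, hnd⟩ := v.exists_primeCompl_mul_eq_of_integer x hx
  have hd : A.valuation ((((d : 𝓞 K) : K) : Qb)) = 1 := val_eq_one_of_notMem hv d.2
  have hn : A.valuation ((((n : 𝓞 K) : K) : Qb)) ≤ 1 := val_integer_le_one K A n
  have h1 : (x : Qb) * ((((d : 𝓞 K) : K) : Qb)) = (((n : 𝓞 K) : K) : Qb) := by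
    have := congrArg (fun z : K => (z : Qb)) hnd
    simpa using this
  have h2 : A.valuation (x : Qb) * A.valuation ((((d : 𝓞 K) : K) : Qb)) =
      A.valuation ((((n : 𝓞 K) : K) : Qb)) := by rw [← map_mul, h1]
  rw [hd, mul_one] at h2
  rw [h2]
  exact hn

/-- `v`-units of `K` are `A`-units. -/
theorem val_eq_one_of_valuation_eq_one (hv : ∀ y ∈ v.asIdeal, (((y : K) : Qb)) ∈ A.nonunits)
    {x : K} (hx : v.valuation K x = 1) : A.valuation ((x : Qb)) = 1 := by
  have hx0 : x ≠ 0 := by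
    intro h0
    rw [h0, map_zero] at hx
    exact zero_ne_one hx
  have h1 := val_le_one_of_valuation_le_one hv hx.le
  have h2 : v.valuation K x⁻¹ ≤ 1 := by rw [map_inv₀, hx, inv_one]
  have h3 := val_le_one_of_valuation_le_one hv h2
  have h4 : A.valuation ((x : Qb)) * A.valuation (((x⁻¹ : K) : Qb)) = 1 := by
    rw [← map_mul]
    have : (x : Qb) * ((x⁻¹ : K) : Qb) = 1 := by
      have := congrArg (fun z : K => (z : Qb)) (mul_inv_cancel₀ hx0)
      simpa using this
    rw [this, map_one]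
  refine le_antisymm h1 ?_
  calc (1 : A.ValueGroup) = A.valuation ((x : Qb)) * A.valuation (((x⁻¹ : K) : Qb)) := h4.symm
    _ ≤ A.valuation ((x : Qb)) * 1 := by gcongr
    _ = A.valuation ((x : Qb)) := mul_one _

/-- Elements of positive `v`-valuation have positive `A`-valuation. -/
theorem val_lt_one_of_valuation_lt_one (hv : ∀ y ∈ v.asIdeal, (((y : K) : Qb)) ∈ A.nonunits)
    {x : K} (hx : v.valuation K x < 1) : A.valuation ((x : Qb)) < 1 := by
  obtain ⟨n, d, hnd⟩ := v.exists_primeCompl_mul_eq_of_integer x hx.le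
  have hd : A.valuation ((((d : 𝓞 K) : K) : Qb)) = 1 := val_eq_one_of_notMem hv d.2
  have hdv : v.valuation K ((d : 𝓞 K) : K) = 1 := by
    rw [valuation_of_algebraMap]
    exact (v.intValuation_eq_one_iff_mem_primeCompl _).mpr d.2
  have hnv : v.valuation K (algebraMap (𝓞 K) K n) < 1 := by
    rw [← hnd, map_mul]
    have hdv' : v.valuation K (algebraMap (𝓞 K) K (d : 𝓞 K)) = 1 := hdv
    rw [hdv', mul_one]
    exact hx
  have hn : n ∈ v.asIdeal := (v.valuation_lt_one_iff_mem n).mp hnv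
  have hnA : A.valuation ((((n : 𝓞 K) : K) : Qb)) < 1 :=
    A.mem_nonunits_iff.mp (hv n hn)
  have h1 : (x : Qb) * ((((d : 𝓞 K) : K) : Qb)) = (((n : 𝓞 K) : K) : Qb) := by
    have := congrArg (fun z : K => (z : Qb)) hnd
    simpa using this
  have h2 : A.valuation (x : Qb) * A.valuation ((((d : 𝓞 K) : K) : Qb)) =
      A.valuation ((((n : 𝓞 K) : K) : Qb)) := by rw [← map_mul, h1]
  rw [hd, mul_one] at h2
  rw [h2]
  exact hnA

/-- **Comparison of valuations.** If `π` is a `v`-uniformizer, then every `a ∈ Kˣ` has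
`A`-valuation `A(π) ^ ord_v(a)`. -/
theorem val_eq_zpow (hv : ∀ y ∈ v.asIdeal, (((y : K) : Qb)) ∈ A.nonunits)
    {π : K} (hπ : v.valuation K π = exp (-1 : ℤ)) (a : Kˣ) :
    A.valuation (((a : K) : Qb)) =
      A.valuation ((π : Qb)) ^ (-(Multiplicative.toAdd (v.valuationOfNeZero a))) := by
  set n : ℤ := Multiplicative.toAdd (v.valuationOfNeZero a) with hn
  have hπ0 : π ≠ 0 := by
    intro h0
    rw [h0, map_zero] at hπ
    exact (exp_ne_zero).symm hπ
  have ha : v.valuation K (a : K) = exp n := by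
    rw [← valuationOfNeZero_eq]
    rfl
  have h1 : v.valuation K ((a : K) * π ^ n) = 1 := by
    rw [map_mul, map_zpow₀, ha, hπ, ← exp_zsmul, ← exp_add]
    simp
  have h2 := val_eq_one_of_valuation_eq_one hv h1
  have h3 : ((((a : K) * π ^ n : K)) : Qb) = ((a : K) : Qb) * (π : Qb) ^ n := by
    push_cast
    rfl
  rw [h3, map_mul, map_zpow₀] at h2
  have hπA : A.valuation (π : Qb) ≠ 0 := by
    rw [Valuation.ne_zero_iff]
    exact_mod_cast hπ0
  rw [zpow_neg]
  exact eq_inv_of_mul_eq_one_left h2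

end ValCompare

section Exist

open Fermat.Agent.Lib.InertiaGlue WithZero

variable (K : IntermediateField ℚ Qb)

/-- Every prime of the integers of `K` is the centre of a valuation subring of `Q̄`. -/
theorem exists_valuationSubring_over (P : Ideal (𝓞 K)) (hP : P ≠ ⊤) :
    ∃ A : ValuationSubring Qb, ∀ y ∈ P, (((y : K) : Qb)) ∈ A.nonunits := by
  let φ : 𝓞 K →+* Qb := (algebraMap K Qb).comp (algebraMap (𝓞 K) K)
  have hφ : Function.Injective φ :=
    (algebraMap K Qb).injective.comp (RingOfIntegers.coe_injective)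
  set I : Ideal φ.range := P.map φ.rangeRestrict with hI
  have hI1 : I ≠ ⊤ := by
    intro htop
    have h1 : (1 : φ.range) ∈ I := by rw [htop]; trivial
    rw [hI, Ideal.mem_map_iff_of_surjective _ φ.rangeRestrict_surjective] at h1
    obtain ⟨y, hy, hy1⟩ := h1
    have h2 : φ y = 1 := congrArg Subtype.val hy1
    have h3 : y = 1 := hφ (h2.trans (map_one φ).symm)
    exact hP ((Ideal.eq_top_iff_one P).mpr (h3 ▸ hy))
  obtain ⟨B, -, hB⟩ := Ideal.image_subset_nonunits_valuationSubring I hI1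
  refine ⟨B, fun y hy => ?_⟩
  exact hB ⟨φ.rangeRestrict y, Ideal.mem_map_of_mem _ hy, rfl⟩

/-- A nonzero prime of the integers of a number field contains a rational prime. -/
theorem exists_prime_natCast_mem [NumberField K] (v : HeightOneSpectrum (𝓞 K)) :
    ∃ q : ℕ, q.Prime ∧ ((q : ℕ) : 𝓞 K) ∈ v.asIdeal := by
  set n := Ideal.absNorm v.asIdeal with hn
  have hn0 : n ≠ 0 := fun h => v.ne_bot (Ideal.absNorm_eq_zero_iff.mp h)
  have hmem : ((n : ℕ) : 𝓞 K) ∈ v.asIdeal := Ideal.absNorm_mem v.asIdeal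
  have h1 : ((n : ℕ) : 𝓞 K) = (((n.primeFactorsList.map (fun m : ℕ => (m : 𝓞 K))) :
      Multiset (𝓞 K))).prod := by
    rw [Multiset.prod_coe, ← Nat.cast_list_prod, Nat.prod_primeFactorsList hn0]
  rw [h1, v.isPrime.multiset_prod_mem_iff_exists_mem] at hmem
  obtain ⟨x, hx, hxv⟩ := hmem
  rw [Multiset.mem_coe, List.mem_map] at hx
  obtain ⟨q, hq, rfl⟩ := hx
  exact ⟨q, Nat.prime_of_mem_primeFactorsList hq, hxv⟩

end Exist

section Main

open Fermat.Agent.Lib.InertiaGlue WithZero

/-- If the inertia group of `A` (over `q`) fixes the finite Galois extension `F`, then `q` is a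
uniformizer at the prime of `F` below `A`. -/
theorem valuation_natCast_eq_exp_neg_one (F : IntermediateField ℚ Qb) [NumberField F]
    [IsGalois ℚ F] (A : ValuationSubring Qb) (q : ℕ) (hq : q.Prime) (hAq : A.LiesOverPrime q)
    (hA : A.inertiaSubgroupIn ℚ ≤ F.fixingSubgroup) (v : HeightOneSpectrum (𝓞 F))
    (hv : v.asIdeal = primeBelow F A) : v.valuation F ((q : ℕ) : F) = exp (-1 : ℤ) := by
  have he := ramificationIdx_primeBelow_eq_one F A q hq hAq hA
  have hqP : ((q : ℕ) : 𝓞 F) ∈ primeBelow F A := by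
    rw [mem_primeBelow]
    have hA' : ((q : ℕ) : Qb) ∈ A.nonunits := hAq
    simpa using hA'
  have hq0 : ((q : ℕ) : 𝓞 F) ≠ 0 := Nat.cast_ne_zero.mpr hq.ne_zero
  have hmax : (Ideal.span {(q : ℤ)}).IsMaximal :=
    PrincipalIdealRing.isMaximal_of_irreducible
      (Nat.prime_iff_prime_int.mp hq).irreducible
  have hunder : (primeBelow F A).under ℤ = Ideal.span {(q : ℤ)} := by
    refine (hmax.eq_of_le ?_ ?_).symm
    · exact (Ideal.IsPrime.under ℤ (primeBelow F A)).ne_top
    · rw [Ideal.span_singleton_le_iff_mem, Ideal.under_def, Ideal.mem_comap]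
      simpa using hqP
  have hlies : (primeBelow F A).LiesOver (Ideal.span {(q : ℤ)}) := ⟨hunder.symm⟩
  have hmap : (Ideal.span {(q : ℤ)}).map (algebraMap ℤ (𝓞 F)) = Ideal.span {((q : ℕ) : 𝓞 F)} := by
    rw [Ideal.map_span, Set.image_singleton]
    simp
  have hmap0 : (Ideal.span {(q : ℤ)}).map (algebraMap ℤ (𝓞 F)) ≠ ⊥ := by
    rw [hmap, Ne, Ideal.span_singleton_eq_bot]
    exact hq0
  have hmult := Ideal.IsDedekindDomain.ramificationIdx_eq_multiplicity (Ideal.span {(q : ℤ)})
    (primeBelow F A) hmap0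
  rw [he, hmap] at hmult
  have hnot : ((q : ℕ) : 𝓞 F) ∉ v.asIdeal ^ 2 := by
    intro hmem
    have hdvd : (primeBelow F A) ^ 2 ∣ Ideal.span {((q : ℕ) : 𝓞 F)} := by
      rw [Ideal.dvd_iff_le, Ideal.span_singleton_le_iff_mem, ← hv]
      exact hmem
    have hfin : FiniteMultiplicity (primeBelow F A) (Ideal.span {((q : ℕ) : 𝓞 F)}) := by
      apply FiniteMultiplicity.of_not_isUnit
      · rw [Ideal.isUnit_iff]
        exact Ideal.IsPrime.ne_top inferInstance
      · intro h0
        exact hq0 (Ideal.span_singleton_eq_bot.mp h0)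
    have := hfin.le_multiplicity_of_pow_dvd hdvd
    omega
  have hmem1 : ((q : ℕ) : 𝓞 F) ∈ v.asIdeal ^ 1 := by
    rw [pow_one, hv]
    exact hqP
  rw [← v.intValuation_le_pow_iff_mem] at hnot hmem1
  have hval : v.valuation F ((q : ℕ) : F) = v.intValuation ((q : ℕ) : 𝓞 F) := by
    rw [← valuation_of_algebraMap (K := F)]
    simp
  rw [hval]
  rw [v.intValuation_if_neg hq0] at hnot hmem1 ⊢
  rw [exp_le_exp] at hnot hmem1
  congr 1
  push_cast at hnot hmem1 ⊢
  omega

/-- **[RAM]** Let `F` be unramified outside `S` (in the sense of the Prelude), `K` a number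
field and `a ∈ Kˣ` with a `p`-th root in `F`. Then `p` divides the valuation of `a` at every
prime of `K` which contains no rational prime of `S`. -/
theorem dvd_toAdd_valuationOfNeZero_of_pow_eq {p : ℕ} (hp : p ≠ 0) {S : Finset Nat.Primes}
    {F : IntermediateField ℚ Qb} (hF : F.IsUnramifiedOutside S)
    (K : IntermediateField ℚ Qb) [NumberField K] (a : Kˣ) (β : Qb) (hβF : β ∈ F)
    (hβ : β ^ p = ((a : K) : Qb)) (v : HeightOneSpectrum (𝓞 K))
    (hvS : ∀ q : Nat.Primes, q ∈ S → ((q : ℕ) : 𝓞 K) ∉ v.asIdeal) :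
    (p : ℤ) ∣ Multiplicative.toAdd (v.valuationOfNeZero a) := by
  -- the Galois closure
  have hNur := isUnramifiedOutside_normalClosure hF
  set N := IntermediateField.normalClosure ℚ F Qb with hN
  have hNfin : FiniteDimensional ℚ N := hNur.1
  have hNnf : NumberField N := ⟨⟩
  have hNnormal : Normal ℚ N := normalClosure.normal ℚ F Qb
  have hNgal : IsGalois ℚ N := ⟨⟩
  -- a valuation subring centred at `v`
  obtain ⟨A, hA⟩ := exists_valuationSubring_over K v.asIdeal v.isPrime.ne_top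
  obtain ⟨q, hq, hqv⟩ := exists_prime_natCast_mem K v
  have hAq : A.LiesOverPrime q := by
    have h := hA _ hqv
    show ((q : ℕ) : Qb) ∈ A.nonunits
    simpa using h
  have hqS : (⟨q, hq⟩ : Nat.Primes) ∉ S := fun h => hvS ⟨q, hq⟩ h hqv
  have hin : A.inertiaSubgroupIn ℚ ≤ N.fixingSubgroup := hNur.2 ⟨q, hq⟩ hqS A hAq
  -- the place of `N` below `A`
  have hqN : ((q : ℕ) : 𝓞 N) ∈ primeBelow N A := by
    rw [mem_primeBelow]
    have hA' : ((q : ℕ) : Qb) ∈ A.nonunits := hAq
    simpa using hA'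
  have hneN : primeBelow N A ≠ ⊥ := by
    intro h0
    rw [h0, Ideal.mem_bot] at hqN
    exact (Nat.cast_ne_zero.mpr hq.ne_zero) hqN
  let vN : HeightOneSpectrum (𝓞 N) := ⟨primeBelow N A, inferInstance, hneN⟩
  have hvN : ∀ y ∈ vN.asIdeal, (((y : N) : Qb)) ∈ A.nonunits :=
    fun y hy => (mem_primeBelow N A y).mp hy
  have hunif : vN.valuation N ((q : ℕ) : N) = exp (-1 : ℤ) :=
    valuation_natCast_eq_exp_neg_one N A q hq hAq hin vN rfl
  -- `β` as a unit of `N`
  have hβN : β ∈ N := IntermediateField.le_normalClosure F hβF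
  have ha0 : ((a : K) : Qb) ≠ 0 := by
    have := a.ne_zero
    exact_mod_cast this
  have hβ0 : β ≠ 0 := by
    intro h0
    rw [h0, zero_pow hp] at hβ
    exact ha0 hβ.symm
  let b : Nˣ := Units.mk0 ⟨β, hβN⟩ (fun h => hβ0 (congrArg Subtype.val h))
  have h1 := val_eq_zpow hvN hunif b
  -- the `K` side
  obtain ⟨π, hπ⟩ := v.valuation_exists_uniformizer K
  have h2 := val_eq_zpow hA hπ a
  let qK : Kˣ := Units.mk0 ((q : ℕ) : K) (Nat.cast_ne_zero.mpr hq.ne_zero)
  have h3 := val_eq_zpow hA hπ qK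
  have hπlt : A.valuation (π : Qb) < 1 :=
    val_lt_one_of_valuation_lt_one hA (by
      rw [hπ, ← exp_zero, exp_lt_exp]
      norm_num)
  have hπ0 : π ≠ 0 := by
    intro h0
    rw [h0, map_zero] at hπ
    exact (exp_ne_zero).symm hπ
  have hπpos : 0 < A.valuation (π : Qb) := by
    rw [Valuation.pos_iff]
    exact_mod_cast hπ0
  set na := Multiplicative.toAdd (v.valuationOfNeZero a) with hna
  set nq := Multiplicative.toAdd (v.valuationOfNeZero qK) with hnq
  set nb := Multiplicative.toAdd (vN.valuationOfNeZero b) with hnb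
  have e1 : (((b : N) : Qb)) = β := rfl
  have e2 : ((((q : ℕ) : N) : Qb)) = ((q : ℕ) : Qb) := by simp
  have e3 : (((qK : K) : Qb)) = ((q : ℕ) : Qb) := by simp [qK]
  rw [e1, e2] at h1
  rw [e3] at h3
  have h4 : A.valuation (π : Qb) ^ (-na) = A.valuation (π : Qb) ^ ((-nq) * (-nb) * (p : ℤ)) := by
    rw [← h2, ← hβ, map_pow, h1, h3, zpow_mul, zpow_mul, zpow_natCast]
  have h5 := zpow_right_injective₀ hπpos hπlt.ne h4
  have h6 : na = (p : ℤ) * (-(nq * nb)) := by
    have : -na = (-nq) * (-nb) * (p : ℤ) := h5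
    linarith
  exact ⟨_, h6⟩

end Main

end Fermat.Agent.CFT.Fin
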