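import Mathlib

set_option autoImplicit false

open IsDedekindDomain HeightOneSpectrum nonZeroDivisors FractionalIdeal

namespace Fermat.Agent.CFT.Fin

section Dedekind

variable {R : Type*} [CommRing R] [IsDedekindDomain R] {K : Type*} [Field K] [Algebra R K]
  [IsFractionRing R K]

/-- The `v`-adic exponent of the principal fractional ideal `(x)` is minus the additive
valuation of `x`. -/
theorem count_spanSingleton_eq (v : HeightOneSpectrum R) (x : Kˣ) :
    FractionalIdeal.count K v (spanSingleton R⁰ (x : K)) =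
      - Multiplicative.toAdd (v.valuationOfNeZero x) := by
  classical
  have hx0 : spanSingleton R⁰ (x : K) ≠ 0 := spanSingleton_ne_zero_iff.mpr x.ne_zero
  have hs := IsLocalization.sec_spec R⁰ (x : K)
  set r := (IsLocalization.sec R⁰ (x : K)).1 with hr
  set s := (IsLocalization.sec R⁰ (x : K)).2 with hsdef
  have hs0 : algebraMap R K (s : R) ≠ 0 :=
    IsLocalization.to_map_ne_zero_of_mem_nonZeroDivisors _ le_rfl s.2
  have h1 : spanSingleton R⁰ (x : K) =
      spanSingleton R⁰ ((algebraMap R K) (s : R))⁻¹ * ((Ideal.span {r} : Ideal R) :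
        FractionalIdeal R⁰ K) := by
    rw [coeIdeal_span_singleton, spanSingleton_mul_spanSingleton]
    congr 1
    rw [← hs, mul_comm, mul_assoc, mul_inv_cancel₀ hs0, mul_one]
  rw [count_well_defined K v hx0 h1]
  show _ = - Multiplicative.toAdd (v.valuationOfNeZeroToFun x)
  unfold valuationOfNeZeroToFun
  simp only [toAdd_ofAdd]
  ring

/-- If all valuations of `a` are divisible by `n`, then `(a)` is the `n`-th power of a
fractional ideal. -/
theorem exists_fractionalIdeal_pow_eq (a : Kˣ) (n : ℕ) (hn : 0 < n)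
    (h : ∀ v : HeightOneSpectrum R, (n : ℤ) ∣ Multiplicative.toAdd (v.valuationOfNeZero a)) :
    ∃ I : (FractionalIdeal R⁰ K)ˣ, I ^ n = toPrincipalIdeal R K a := by
  classical
  set J : FractionalIdeal R⁰ K := spanSingleton R⁰ (a : K) with hJdef
  have hJ : J ≠ 0 := spanSingleton_ne_zero_iff.mpr a.ne_zero
  have h' : ∀ v : HeightOneSpectrum R, (n : ℤ) ∣ FractionalIdeal.count K v J := by
    intro v
    rw [hJdef, count_spanSingleton_eq]
    exact (dvd_neg).mpr (h v)
  choose d hd using h'
  set I₀ : FractionalIdeal R⁰ K :=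
    ∏ᶠ v : HeightOneSpectrum R, (v.asIdeal : FractionalIdeal R⁰ K) ^ (d v) with hI₀
  have hfin : (Function.mulSupport fun v : HeightOneSpectrum R =>
      (v.asIdeal : FractionalIdeal R⁰ K) ^ (d v)).Finite := by
    have hf := FractionalIdeal.finite_factors (R := R) (K := K) J
    rw [Filter.eventually_cofinite] at hf
    refine hf.subset ?_
    intro v hv
    simp only [Function.mem_mulSupport, ne_eq] at hv
    simp only [Set.mem_ofPred_eq]
    intro h0
    apply hv
    have : d v = 0 := by
      have := hd v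
      rw [h0] at this
      have hn' : (n : ℤ) ≠ 0 := by exact_mod_cast hn.ne'
      exact (mul_eq_zero.mp this.symm).resolve_left hn'
    rw [this, zpow_zero]
  have hpow : I₀ ^ n = J := by
    rw [hI₀, finprod_pow hfin]
    rw [← finprod_heightOneSpectrum_factorization' (R := R) (K := K) hJ]
    apply finprod_congr
    intro v
    rw [hd v, mul_comm, zpow_mul, zpow_natCast]
  have hI₀ne : I₀ ≠ 0 := by
    intro h0
    rw [h0, zero_pow hn.ne'] at hpow
    exact hJ hpow.symm
  refine ⟨Units.mk0 I₀ hI₀ne, ?_⟩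
  apply Units.ext
  rw [Units.val_pow_eq_pow_val, Units.val_mk0, hpow, coe_toPrincipalIdeal]

/-- Elements of `Kˣ` whose valuations outside `T` are all divisible by `n`. -/
def selmerSubgroup (R : Type*) [CommRing R] [IsDedekindDomain R] (K : Type*) [Field K]
    [Algebra R K] [IsFractionRing R K] (T : Set (HeightOneSpectrum R)) (n : ℕ) :
    Subgroup Kˣ where
  carrier := {a | ∀ v : HeightOneSpectrum R, v ∉ T →
    (n : ℤ) ∣ Multiplicative.toAdd (v.valuationOfNeZero a)}
  one_mem' := by
    intro v _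
    simp
  mul_mem' := by
    intro a b ha hb v hv
    rw [map_mul, toAdd_mul]
    exact dvd_add (ha v hv) (hb v hv)
  inv_mem' := by
    intro a ha v hv
    rw [map_inv, toAdd_inv]
    exact (dvd_neg).mpr (ha v hv)

theorem mem_selmerSubgroup_iff {T : Set (HeightOneSpectrum R)} {n : ℕ} {a : Kˣ} :
    a ∈ selmerSubgroup R K T n ↔ ∀ v : HeightOneSpectrum R, v ∉ T →
      (n : ℤ) ∣ Multiplicative.toAdd (v.valuationOfNeZero a) := Iff.rfl

theorem pow_range_le_selmerSubgroup (T : Set (HeightOneSpectrum R)) (n : ℕ) :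
    (powMonoidHom n : Kˣ →* Kˣ).range ≤ selmerSubgroup R K T n := by
  rintro _ ⟨b, rfl⟩ v _
  rw [powMonoidHom_apply, map_pow, toAdd_pow]
  exact ⟨_, by rw [nsmul_eq_mul]⟩

theorem selmerSubgroup_mono {T T' : Set (HeightOneSpectrum R)} (h : T ⊆ T') (n : ℕ) :
    selmerSubgroup R K T n ≤ selmerSubgroup R K T' n :=
  fun _ ha v hv => ha v (fun hv' => hv (h hv'))

/-- The image of the units of `R` in `Kˣ`. -/
def unitSub (R : Type*) [CommRing R] (K : Type*) [Field K] [Algebra R K] : Subgroup Kˣ :=
  (Units.map (algebraMap R K : R →* K)).range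

/-- Two generators of the same principal fractional ideal differ by a unit. -/
theorem div_mem_unitSub_of_toPrincipalIdeal_eq {a b : Kˣ}
    (h : toPrincipalIdeal R K a = toPrincipalIdeal R K b) : a / b ∈ unitSub R K := by
  have h1 : spanSingleton R⁰ (a : K) = spanSingleton R⁰ (b : K) := by
    rw [← coe_toPrincipalIdeal, ← coe_toPrincipalIdeal, h]
  obtain ⟨z, hz⟩ := (spanSingleton_eq_spanSingleton (R := R)).mp h1
  refine ⟨z⁻¹, ?_⟩
  apply Units.ext
  rw [Units.coe_map, Units.val_div_eq_div_val, ← hz]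
  simp only [MonoidHom.coe_coe, Units.smul_def, Algebra.smul_def]
  rw [eq_div_iff (mul_ne_zero (by
    intro h0
    have : (algebraMap R K) ((z : R) * ((z⁻¹ : Rˣ) : R)) = 0 := by rw [map_mul, h0, zero_mul]
    rw [Units.mul_inv, map_one] at this
    exact one_ne_zero this) a.ne_zero)]
  rw [← mul_assoc, ← map_mul, Units.inv_mul, map_one, one_mul]

/-- Key step: two elements with `n`-divisible valuations whose "`n`-th root ideals" have the
same class differ by an `n`-th power times a unit. -/
theorem div_mem_of_class_eq {a b : Kˣ} {n : ℕ} {I J : (FractionalIdeal R⁰ K)ˣ}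
    (hI : I ^ n = toPrincipalIdeal R K a) (hJ : J ^ n = toPrincipalIdeal R K b)
    (h : ClassGroup.mk K I = ClassGroup.mk K J) :
    a / b ∈ (powMonoidHom n : Kˣ →* Kˣ).range ⊔ unitSub R K := by
  have h1 : ClassGroup.mk K (I / J) = 1 := by rw [map_div, h, div_self']
  rw [ClassGroup.mk_eq_one_iff] at h1
  obtain ⟨x, hx⟩ := (FractionalIdeal.isPrincipal_iff _).mp h1
  have hx0 : x ≠ 0 := by
    intro h0
    rw [h0, spanSingleton_zero] at hx
    exact (I / J).ne_zero hx
  have h2 : I / J = toPrincipalIdeal R K (Units.mk0 x hx0) := by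
    apply Units.ext
    rw [hx, coe_toPrincipalIdeal, Units.val_mk0]
  have h3 : toPrincipalIdeal R K (a / b) = toPrincipalIdeal R K ((Units.mk0 x hx0) ^ n) := by
    rw [map_div, ← hI, ← hJ, map_pow, ← h2, div_pow]
  have h4 := div_mem_unitSub_of_toPrincipalIdeal_eq h3
  have h5 : a / b = (Units.mk0 x hx0) ^ n * (a / b / (Units.mk0 x hx0) ^ n) := by
    rw [mul_div_cancel]
  rw [h5]
  exact Subgroup.mul_mem_sup ⟨_, rfl⟩ h4

/-- `Sel(∅)` modulo `n`-th powers times units injects into the class group. -/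
theorem relIndex_sup_selmerSubgroup_empty_ne_zero [Finite (ClassGroup R)] (n : ℕ) (hn : 0 < n) :
    ((powMonoidHom n : Kˣ →* Kˣ).range ⊔ unitSub R K).relIndex
      (selmerSubgroup R K ∅ n) ≠ 0 := by
  classical
  set G := selmerSubgroup R K (∅ : Set (HeightOneSpectrum R)) n with hG
  set H := ((powMonoidHom n : Kˣ →* Kˣ).range ⊔ unitSub R K).subgroupOf G with hH
  have hex : ∀ a : G, ∃ I : (FractionalIdeal R⁰ K)ˣ, I ^ n = toPrincipalIdeal R K (a : Kˣ) :=
    fun a => exists_fractionalIdeal_pow_eq (a : Kˣ) n hn (fun v => a.2 v (Set.notMem_empty v))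
  choose I hI using hex
  let g : G ⧸ H → ClassGroup R := fun q => ClassGroup.mk K (I q.out)
  have hg : Function.Injective g := by
    intro q q' hqq
    have h1 := div_mem_of_class_eq (hI q.out) (hI q'.out) hqq
    have h3 : (QuotientGroup.mk q.out : G ⧸ H) = QuotientGroup.mk q'.out := by
      rw [QuotientGroup.eq]
      have h2 : ((q.out⁻¹ * q'.out : G) : Kˣ) = ((q.out : Kˣ) / (q'.out : Kˣ))⁻¹ := by
        rw [Subgroup.coe_mul, Subgroup.coe_inv, inv_div, div_eq_mul_inv, mul_comm]
      refine Subgroup.mem_subgroupOf.mpr ?_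
      rw [h2]
      exact Subgroup.inv_mem _ h1
    exact (QuotientGroup.out_eq' q).symm.trans (h3.trans (QuotientGroup.out_eq' q'))
  have : Finite (G ⧸ H) := Finite.of_injective g hg
  exact Subgroup.index_ne_zero_of_finite

omit [IsDedekindDomain R] [IsFractionRing R K] in
/-- `n`-th powers have finite index in `n`-th powers times units, when the unit group is
finitely generated. -/
theorem relIndex_pow_sup_unitSub_ne_zero [Group.FG Rˣ] (n : ℕ) (hn : 0 < n) :
    ((powMonoidHom n : Kˣ →* Kˣ).range).relIndex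
      ((powMonoidHom n : Kˣ →* Kˣ).range ⊔ unitSub R K) ≠ 0 := by
  rw [Subgroup.relIndex_sup_left]
  set φ : Rˣ →* Kˣ := Units.map (algebraMap R K : R →* K) with hφ
  have h1 : unitSub R K = (⊤ : Subgroup Rˣ).map φ := by
    rw [unitSub, MonoidHom.range_eq_map]
  rw [h1, ← Subgroup.relIndex_comap, Subgroup.relIndex_top_right]
  have h2 : (powMonoidHom n : Rˣ →* Rˣ).range ≤ ((powMonoidHom n : Kˣ →* Kˣ).range).comap φ := by
    rintro _ ⟨u, rfl⟩
    rw [Subgroup.mem_comap]
    exact ⟨φ u, by simp⟩
  have h3 : ((powMonoidHom n : Rˣ →* Rˣ).range).index ≠ 0 := by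
    have : Finite (Rˣ ⧸ (powMonoidHom n : Rˣ →* Rˣ).range) := by
      refine CommGroup.finite_of_fg_isMulTorsion _ ?_
      intro q
      induction q using QuotientGroup.induction_on with
      | H x =>
        rw [isOfFinOrder_iff_pow_eq_one]
        refine ⟨n, hn, ?_⟩
        rw [← QuotientGroup.mk_pow, QuotientGroup.eq_one_iff]
        exact ⟨x, rfl⟩
    exact Subgroup.index_ne_zero_of_finite
  exact fun h0 => h3 (Nat.eq_zero_of_zero_dvd (h0 ▸ Subgroup.index_dvd_of_le h2))

/-- Enlarging the exceptional set by a finite set enlarges the Selmer subgroup by a finite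
index. -/
theorem relIndex_selmerSubgroup_empty_ne_zero (T : Set (HeightOneSpectrum R)) (hT : T.Finite)
    (n : ℕ) (hn : 0 < n) :
    (selmerSubgroup R K ∅ n).relIndex (selmerSubgroup R K T n) ≠ 0 := by
  classical
  have : NeZero n := ⟨hn.ne'⟩
  have : Finite T := hT.to_subtype
  let ψ : Kˣ →* (T → Multiplicative (ZMod n)) :=
    { toFun := fun a v => Multiplicative.ofAdd
        ((Multiplicative.toAdd ((v : HeightOneSpectrum R).valuationOfNeZero a) : ℤ) : ZMod n)
      map_one' := by
        funext v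
        simp
      map_mul' := by
        intro a b
        funext v
        simp [Int.cast_add] }
  have hker : ψ.ker ⊓ selmerSubgroup R K T n ≤ selmerSubgroup R K ∅ n := by
    rintro a ⟨ha1, ha2⟩ v _
    by_cases hv : v ∈ T
    · have h1 : ψ a ⟨v, hv⟩ = 1 := by
        have : ψ a = 1 := ha1
        rw [this]; rfl
      have h2 : ((Multiplicative.toAdd (v.valuationOfNeZero a) : ℤ) : ZMod n) = 0 := by
        have := congrArg Multiplicative.toAdd h1
        simpa [ψ] using this
      exact (ZMod.intCast_zmod_eq_zero_iff_dvd _ n).mp h2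
    · exact ha2 v hv
  have h1 : (ψ.ker).relIndex (selmerSubgroup R K T n) ≠ 0 := by
    have : ψ.ker.FiniteIndex := inferInstance
    have h := Subgroup.relIndex_dvd_index_of_normal ψ.ker (selmerSubgroup R K T n)
    exact fun h0 => Subgroup.FiniteIndex.index_ne_zero (H := ψ.ker)
      (Nat.eq_zero_of_zero_dvd (h0 ▸ h))
  rw [← Subgroup.inf_relIndex_right] at h1
  exact fun h0 => h1 (Nat.eq_zero_of_zero_dvd (h0 ▸ Subgroup.relIndex_dvd_of_le_left _ hker))

/-- **Finiteness of the Selmer group** `K(T, n)`: for a Dedekind domain with finite class group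
and finitely generated unit group, the `n`-th powers have finite index in the subgroup of
elements whose valuations outside a finite set `T` are divisible by `n`. -/
theorem relIndex_pow_selmerSubgroup_ne_zero [Finite (ClassGroup R)] [Group.FG Rˣ]
    (T : Set (HeightOneSpectrum R)) (hT : T.Finite) (n : ℕ) (hn : 0 < n) :
    ((powMonoidHom n : Kˣ →* Kˣ).range).relIndex (selmerSubgroup R K T n) ≠ 0 := by
  have h1 := relIndex_pow_sup_unitSub_ne_zero (R := R) (K := K) n hn
  have h2 := relIndex_sup_selmerSubgroup_empty_ne_zero (R := R) (K := K) n hn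
  have h3 := relIndex_selmerSubgroup_empty_ne_zero (R := R) (K := K) T hT n hn
  have hle1 : (powMonoidHom n : Kˣ →* Kˣ).range ≤
      (powMonoidHom n : Kˣ →* Kˣ).range ⊔ unitSub R K := le_sup_left
  have hle2 : (powMonoidHom n : Kˣ →* Kˣ).range ⊔ unitSub R K ≤ selmerSubgroup R K ∅ n := by
    refine sup_le (pow_range_le_selmerSubgroup ∅ n) ?_
    rintro _ ⟨u, rfl⟩ v _
    rw [valuation_of_unit_eq]
    simp
  have hle3 : selmerSubgroup R K ∅ n ≤ selmerSubgroup R K T n :=
    selmerSubgroup_mono (Set.empty_subset T) n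
  rw [← Subgroup.relIndex_mul_relIndex _ _ _ (hle1.trans hle2) hle3,
    ← Subgroup.relIndex_mul_relIndex _ _ _ hle1 hle2]
  exact mul_ne_zero (mul_ne_zero h1 h2) h3

/-- Finitely many representatives for the Selmer group. -/
theorem exists_finset_selmer_reps [Finite (ClassGroup R)] [Group.FG Rˣ]
    (T : Set (HeightOneSpectrum R)) (hT : T.Finite) (n : ℕ) (hn : 0 < n) :
    ∃ Y : Finset Kˣ, ∀ a ∈ selmerSubgroup R K T n, ∃ y ∈ Y, ∃ b : Kˣ, a = y * b ^ n := by
  classical
  set G := selmerSubgroup R K T n with hG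
  set H := ((powMonoidHom n : Kˣ →* Kˣ).range).subgroupOf G with hH
  have hfin : H.index ≠ 0 := relIndex_pow_selmerSubgroup_ne_zero T hT n hn
  have hFI : H.FiniteIndex := ⟨hfin⟩
  have : Finite (G ⧸ H) := Subgroup.finite_quotient_of_finiteIndex
  have : Fintype (G ⧸ H) := Fintype.ofFinite _
  refine ⟨Finset.univ.image (fun q : G ⧸ H => ((q.out : G) : Kˣ)), fun a ha => ?_⟩
  refine ⟨(((QuotientGroup.mk ⟨a, ha⟩ : G ⧸ H).out : G) : Kˣ),
    Finset.mem_image.mpr ⟨_, Finset.mem_univ _, rfl⟩, ?_⟩
  have h1 : (QuotientGroup.mk (QuotientGroup.mk ⟨a, ha⟩ : G ⧸ H).out : G ⧸ H) =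
      QuotientGroup.mk ⟨a, ha⟩ := QuotientGroup.out_eq' _
  rw [QuotientGroup.eq] at h1
  obtain ⟨b, hb⟩ := Subgroup.mem_subgroupOf.mp h1
  refine ⟨b, ?_⟩
  rw [powMonoidHom_apply] at hb
  rw [hb, Subgroup.coe_mul, Subgroup.coe_inv, mul_inv_cancel_left]

end Dedekind

section NumberField

open NumberField

variable (K : Type*) [Field K] [NumberField K]

/-- **Finiteness of the Selmer group of a number field**, in the form of a finite set of
representatives modulo `n`-th powers. -/
theorem exists_finset_selmer_reps_numberField (T : Set (HeightOneSpectrum (𝓞 K)))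
    (hT : T.Finite) (n : ℕ) (hn : 0 < n) :
    ∃ Y : Finset Kˣ, ∀ a ∈ selmerSubgroup (𝓞 K) K T n, ∃ y ∈ Y, ∃ b : Kˣ, a = y * b ^ n := by
  have : Group.FG (𝓞 K)ˣ := Group.fg_iff_monoid_fg.mpr inferInstance
  exact exists_finset_selmer_reps T hT n hn

end NumberField

end Fermat.Agent.CFT.Fin
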