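import Mathlib
import Fermat.Agent.CFT.Fin.SelmerFinite
import Fermat.Agent.CFT.Fin.Ram

set_option autoImplicit false

open IsDedekindDomain HeightOneSpectrum NumberField

namespace Fermat.Agent.CFT.Fin

attribute [local instance] normal_Qb

section Resolvent

set_option synthInstance.maxHeartbeats 200000 in
set_option maxHeartbeats 1000000 in
/-- **Hilbert 90 / Lagrange resolvent.** A character of `G_K` with values in `Kˣ` which is
trivial on `G_N` (`N ⊇ K` finite Galois over `ℚ`) is of the form `s ↦ s β / β` with `β ∈ N`. -/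
theorem exists_resolvent (K N : IntermediateField ℚ Qb) (hKN : K ≤ N) [FiniteDimensional ℚ N]
    [hN : Normal ℚ N] (ψ : K.fixingSubgroup →* Kˣ)
    (hψ : ∀ s : K.fixingSubgroup, (s : GQ) ∈ N.fixingSubgroup → ψ s = 1) :
    ∃ β : Qb, β ≠ 0 ∧ β ∈ N ∧
      ∀ s : K.fixingSubgroup, (s : GQ) β = (((ψ s : Kˣ) : K) : Qb) * β := by
  let N' : IntermediateField K Qb := IntermediateField.extendScalars hKN
  have hN'normal : Normal K N' := by
    rw [IntermediateField.normal_iff_forall_map_le']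
    intro σ
    rintro _ ⟨x, hx, rfl⟩
    have h := (IntermediateField.normal_iff_forall_map_le' (F := ℚ) (L := Qb) (K := N)).mp
      hN (σ.restrictScalars ℚ)
    exact h ⟨x, hx, rfl⟩
  have hN'fin : FiniteDimensional K N' := by
    have h1 : FiniteDimensional ℚ N' := (inferInstance : FiniteDimensional ℚ N)
    exact FiniteDimensional.right ℚ K N'
  let e := IntermediateField.fixingSubgroupEquiv K
  let r : (Qb ≃ₐ[K] Qb) →* (N' ≃ₐ[K] N') := AlgEquiv.restrictNormalHom N'
  have hr : Function.Surjective r := AlgEquiv.restrictNormalHom_surjective Qb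
  let ψ' : (Qb ≃ₐ[K] Qb) →* Kˣ := ψ.comp e.symm.toMonoidHom
  have hker : r.ker ≤ ψ'.ker := by
    intro σ hσ
    rw [MonoidHom.mem_ker] at hσ ⊢
    show ψ (e.symm σ) = 1
    apply hψ
    rw [IntermediateField.mem_fixingSubgroup_iff]
    intro x hx
    have h1 : (r σ) (⟨x, hx⟩ : N') = (⟨x, hx⟩ : N') := by rw [hσ]; rfl
    have h2 := AlgEquiv.restrictNormal_commutes σ N' (⟨x, hx⟩ : N')
    have h3 : ((r σ) (⟨x, hx⟩ : N') : Qb) = σ x := h2
    rw [h1] at h3
    exact h3.symm
  let ψb : (N' ≃ₐ[K] N') →* Kˣ := MonoidHom.liftOfSurjective r hr ⟨ψ', hker⟩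
  have hψb : ∀ σ, ψb (r σ) = ψ' σ := fun σ =>
    MonoidHom.liftOfRightInverse_comp_apply r _ _ ⟨ψ', hker⟩ σ
  let f : (N' ≃ₐ[K] N') → N'ˣ := fun τ => Units.map (algebraMap K N' : K →* N') (ψb τ)
  have hf : groupCohomology.IsMulCocycle₁ f := by
    intro τ₁ τ₂
    have h1 : τ₁ • f τ₂ = f τ₂ := by
      apply Units.ext
      show τ₁ ((f τ₂ : N'ˣ) : N') = _
      show τ₁ (algebraMap K N' _) = algebraMap K N' _
      exact τ₁.commutes _
    rw [h1]
    show Units.map _ (ψb (τ₁ * τ₂)) = Units.map _ (ψb τ₂) * Units.map _ (ψb τ₁)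
    rw [map_mul, map_mul, mul_comm]
  obtain ⟨b, hb⟩ := groupCohomology.isMulCoboundary₁_of_isMulCocycle₁_of_aut_to_units f hf
  refine ⟨((b : N') : Qb), ?_, (b : N').2, fun s => ?_⟩
  · intro h0
    exact b.ne_zero (Subtype.ext h0)
  · have h1 := hb (r (e s))
    have h2 : f (r (e s)) = Units.map (algebraMap K N' : K →* N') (ψ s) := by
      show Units.map _ (ψb (r (e s))) = _
      rw [hψb]
      show Units.map _ (ψ (e.symm (e s))) = _
      rw [MulEquiv.symm_apply_apply]
    rw [h2, div_eq_iff_eq_mul] at h1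
    have h3 : ((((r (e s)) • b : N'ˣ) : N') : Qb) =
        (((Units.map (algebraMap K N' : K →* N') (ψ s) * b : N'ˣ) : N') : Qb) :=
      congrArg (fun u : N'ˣ => (((u : N') : Qb))) h1
    have h4 : ((((r (e s)) • b : N'ˣ) : N') : Qb) = (s : GQ) ((b : N') : Qb) :=
      AlgEquiv.restrictNormal_commutes (e s) N' (b : N')
    rw [h4] at h3
    rw [h3]
    rfl

end Resolvent

section KummerLevel

/-- The primes of `K` containing a rational prime of `S`. -/
def primesAbove (K : IntermediateField ℚ Qb) (S : Finset Nat.Primes) :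
    Set (HeightOneSpectrum (𝓞 K)) :=
  {v | ∃ q ∈ S, ((q : ℕ) : 𝓞 K) ∈ v.asIdeal}

theorem finite_primesAbove (K : IntermediateField ℚ Qb) [NumberField K] (S : Finset Nat.Primes) :
    (primesAbove K S).Finite := by
  have h : primesAbove K S ⊆ ⋃ q ∈ (S : Set Nat.Primes),
      {v : HeightOneSpectrum (𝓞 K) | v.asIdeal ∣ Ideal.span {((q : ℕ) : 𝓞 K)}} := by
    rintro v ⟨q, hq, hqv⟩
    simp only [Set.mem_iUnion, Set.mem_ofPred_eq]
    exact ⟨q, hq, Ideal.dvd_span_singleton.mpr hqv⟩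
  refine (Set.Finite.biUnion S.finite_toSet fun q _ => ?_).subset h
  apply Ideal.finite_factors
  intro h0
  have := Ideal.span_singleton_eq_bot.mp h0
  exact (Nat.cast_ne_zero.mpr q.2.ne_zero) this

/-- The character `ZMod p → ⟨ζ⟩`. -/
noncomputable def zetaHom {K : Type*} [Field K] (p : ℕ) [NeZero p] (ζ : Kˣ) (hζ : ζ ^ p = 1) :
    Multiplicative (ZMod p) →* Kˣ where
  toFun a := ζ ^ (ZMod.val (Multiplicative.toAdd a))
  map_one' := by simp
  map_mul' a b := by
    rw [toAdd_mul, ZMod.val_add, ← pow_add, ← pow_eq_pow_mod _ hζ]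

theorem zetaHom_apply {K : Type*} [Field K] (p : ℕ) [NeZero p] (ζ : Kˣ) (hζ : ζ ^ p = 1)
    (a : Multiplicative (ZMod p)) :
    zetaHom p ζ hζ a = ζ ^ (ZMod.val (Multiplicative.toAdd a)) := rfl

theorem zetaHom_pow {K : Type*} [Field K] (p : ℕ) [NeZero p] (ζ : Kˣ) (hζ : ζ ^ p = 1)
    (a : Multiplicative (ZMod p)) : (zetaHom p ζ hζ a) ^ p = 1 := by
  rw [zetaHom_apply, ← pow_mul, mul_comm, pow_mul, hζ, one_pow]

theorem zetaHom_eq_one {K : Type*} [Field K] (p : ℕ) [NeZero p] (ζ : Kˣ) (hζ : ζ ^ p = 1)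
    (hprim : IsPrimitiveRoot ζ p) (a : Multiplicative (ZMod p)) (h : zetaHom p ζ hζ a = 1) :
    a = 1 := by
  rw [zetaHom_apply, hprim.pow_eq_one_iff_dvd] at h
  have hlt : ZMod.val (Multiplicative.toAdd a) < p := ZMod.val_lt _
  have h0 : ZMod.val (Multiplicative.toAdd a) = 0 := Nat.eq_zero_of_dvd_of_lt h hlt
  have h1 : Multiplicative.toAdd a = 0 := (ZMod.val_eq_zero _).mp h0
  exact Multiplicative.toAdd.injective h1

/-- `Q̄/ℚ` is Galois. -/
theorem isGalois_Qb : IsGalois ℚ Qb := Fermat.Agent.Lib.InertiaGlue.isGalois_rat_Qb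

/-- An element fixed by `G_K` lies in `K`. -/
theorem mem_of_fixed (K : IntermediateField ℚ Qb) (x : Qb)
    (h : ∀ s : K.fixingSubgroup, (s : GQ) x = x) : x ∈ K := by
  have := isGalois_Qb
  rw [← InfiniteGalois.fixedField_fixingSubgroup K, IntermediateField.mem_fixedField_iff]
  exact fun s hs => h ⟨s, hs⟩

/-- **Kummer level.** Let `K ⊇ μ_p` be a number field unramified outside `S`. There is ONE
finite extension `F₀` of `K`, unramified outside `S`, such that every character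
`G_K → ℤ/p` which is trivial on `G_F` for some `F` unramified outside `S` is trivial on
`G_{F₀}`. -/
theorem exists_kummer_level (p : ℕ) [hp : Fact p.Prime] (S : Finset Nat.Primes)
    (K : IntermediateField ℚ Qb) (hKS : K.IsUnramifiedOutside S) (ζ : Kˣ)
    (hζ : IsPrimitiveRoot ζ p) :
    ∃ F₀ : IntermediateField ℚ Qb, F₀.IsUnramifiedOutside S ∧ K ≤ F₀ ∧
      ∀ F : IntermediateField ℚ Qb, F.IsUnramifiedOutside S →
      ∀ χ : K.fixingSubgroup →* Multiplicative (ZMod p),
        (∀ s : K.fixingSubgroup, (s : GQ) ∈ F.fixingSubgroup → χ s = 1) →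
        ∀ s : K.fixingSubgroup, (s : GQ) ∈ F₀.fixingSubgroup → χ s = 1 := by
  classical
  have hKfin : FiniteDimensional ℚ K := hKS.1
  have hKnf : NumberField K := ⟨⟩
  have hp0 : p ≠ 0 := hp.out.ne_zero
  have hppos : 0 < p := hp.out.pos
  have hζp : ζ ^ p = 1 := hζ.pow_eq_one
  set T := primesAbove K S with hT
  obtain ⟨Y, hY⟩ := exists_finset_selmer_reps_numberField K T (finite_primesAbove K S) p hppos
  -- the finite set of all `p`-th roots of the representatives
  set R : Set Qb := ⋃ y ∈ (Y : Set Kˣ),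
    ((Polynomial.nthRoots p ((((y : Kˣ) : K) : Qb))).toFinset : Set Qb) with hR
  have hRfin : R.Finite := Set.Finite.biUnion Y.finite_toSet fun y _ => Finset.finite_toSet _
  have hRmem : ∀ x : Qb, (∃ y ∈ Y, x ^ p = (((y : Kˣ) : K) : Qb)) → x ∈ R := by
    rintro x ⟨y, hy, hxy⟩
    simp only [hR, Set.mem_iUnion]
    refine ⟨y, hy, ?_⟩
    simp only [Finset.mem_coe, Multiset.mem_toFinset]
    exact (Polynomial.mem_nthRoots hppos).mpr hxy
  set K' : IntermediateField ℚ Qb := K ⊔ IntermediateField.adjoin ℚ R with hK'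
  have hK'fin : FiniteDimensional ℚ K' := by
    have : Finite R := hRfin.to_subtype
    have h1 : FiniteDimensional ℚ (IntermediateField.adjoin ℚ R) :=
      IntermediateField.finiteDimensional_adjoin fun x _ =>
        ((AlgebraicClosure.isAlgebraic ℚ).isAlgebraic x).isIntegral
    exact IntermediateField.finiteDimensional_sup K _
  set F₀ : IntermediateField ℚ Qb :=
    sSup {E : IntermediateField ℚ Qb | E ≤ K' ∧ E.IsUnramifiedOutside S} with hF₀
  have hF₀le : F₀ ≤ K' := sSup_le fun E hE => hE.1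
  have hF₀ur : F₀.IsUnramifiedOutside S := by
    refine ⟨?_, fun q hq A hA => ?_⟩
    · exact FiniteDimensional.of_injective (IntermediateField.inclusion hF₀le).toLinearMap
        (IntermediateField.inclusion_injective hF₀le)
    · rw [← IntermediateField.le_iff_le]
      refine sSup_le fun E hE => ?_
      rw [IntermediateField.le_iff_le]
      exact hE.2.2 q hq A hA
  have hKF₀ : K ≤ F₀ := le_sSup ⟨le_sup_left, hKS⟩
  refine ⟨F₀, hF₀ur, hKF₀, fun F hF χ hχ s hs => ?_⟩
  -- the Galois closure of `F K`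
  have hNur := isUnramifiedOutside_normalClosure (hF.sup hKS)
  set N := IntermediateField.normalClosure ℚ (↥(F ⊔ K)) Qb with hN
  have hNfin : FiniteDimensional ℚ N := hNur.1
  have hNnormal : Normal ℚ N := normalClosure.normal ℚ (↥(F ⊔ K)) Qb
  have hFN : F ≤ N := le_sup_left.trans (IntermediateField.le_normalClosure (F ⊔ K))
  have hKN : K ≤ N := le_sup_right.trans (IntermediateField.le_normalClosure (F ⊔ K))
  -- the character with values in `μ_p`
  have : NeZero p := ⟨hp0⟩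
  set ψ : K.fixingSubgroup →* Kˣ := (zetaHom p ζ hζp).comp χ with hψdef
  have hψ : ∀ t : K.fixingSubgroup, (t : GQ) ∈ N.fixingSubgroup → ψ t = 1 := by
    intro t ht
    have h1 : χ t = 1 := hχ t (IntermediateField.fixingSubgroup_antitone hFN ht)
    rw [hψdef, MonoidHom.comp_apply, h1, map_one]
  obtain ⟨β, hβ0, hβN, hβ⟩ := exists_resolvent K N hKN ψ hψ
  -- `β ^ p ∈ K`
  have hψp : ∀ t : K.fixingSubgroup, ((((ψ t : Kˣ) : K) : Qb)) ^ p = 1 := by
    intro t
    have h1 : (ψ t) ^ p = 1 := zetaHom_pow p ζ hζp (χ t)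
    have h2 := congrArg (fun u : Kˣ => (((u : K)) : Qb)) h1
    simpa using h2
  have hβpK : β ^ p ∈ K := by
    apply mem_of_fixed
    intro t
    rw [map_pow, hβ t, mul_pow, hψp t, one_mul]
  set aK : Kˣ := Units.mk0 (⟨β ^ p, hβpK⟩ : K)
    (fun h => (pow_ne_zero p hβ0) (congrArg Subtype.val h)) with haK
  have hsel : aK ∈ selmerSubgroup (𝓞 K) K T p := by
    intro v hv
    refine dvd_toAdd_valuationOfNeZero_of_pow_eq hp0 hNur K aK β hβN rfl v ?_
    intro q hq hqv
    exact hv ⟨q, hq, hqv⟩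
  obtain ⟨y, hyY, b, hyb⟩ := hY aK hsel
  -- `β / b` is a `p`-th root of `y`
  have hb0 : (((b : Kˣ) : K) : Qb) ≠ 0 := by
    have := b.ne_zero
    exact_mod_cast this
  have hyb' : β ^ p = (((y : Kˣ) : K) : Qb) * ((((b : Kˣ) : K) : Qb)) ^ p := by
    have h1 := congrArg (fun u : Kˣ => (((u : K)) : Qb)) hyb
    simpa [haK] using h1
  have hroot : (β / (((b : Kˣ) : K) : Qb)) ^ p = (((y : Kˣ) : K) : Qb) := by
    rw [div_pow, hyb', mul_div_assoc, div_self (pow_ne_zero p hb0), mul_one]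
  have hβ'R : β / (((b : Kˣ) : K) : Qb) ∈ R := hRmem _ ⟨y, hyY, hroot⟩
  have hβK' : β ∈ K' := by
    have h1 : β / (((b : Kˣ) : K) : Qb) ∈ K' :=
      (le_sup_right : IntermediateField.adjoin ℚ R ≤ K') (IntermediateField.subset_adjoin ℚ R hβ'R)
    have h2 : (((b : Kˣ) : K) : Qb) ∈ K' := (le_sup_left : K ≤ K') (b : K).2
    have h3 : β = β / (((b : Kˣ) : K) : Qb) * (((b : Kˣ) : K) : Qb) := by
      rw [div_mul_cancel₀ _ hb0]
    rw [h3]
    exact K'.mul_mem h1 h2
  -- the field `K(β)`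
  set L : IntermediateField ℚ Qb := K ⊔ IntermediateField.adjoin ℚ {β} with hL
  have hLK' : L ≤ K' := sup_le le_sup_left
    (IntermediateField.adjoin_le_iff.mpr (Set.singleton_subset_iff.mpr hβK'))
  have hLN : L ≤ N := sup_le hKN
    (IntermediateField.adjoin_le_iff.mpr (Set.singleton_subset_iff.mpr hβN))
  have hLF₀ : L ≤ F₀ := le_sSup ⟨hLK', hNur.of_le hLN⟩
  have hβL : β ∈ L := (le_sup_right : IntermediateField.adjoin ℚ {β} ≤ L)
    (IntermediateField.mem_adjoin_simple_self ℚ β)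
  have hsβ : (s : GQ) β = β :=
    (IntermediateField.mem_fixingSubgroup_iff F₀ _).mp hs β (hLF₀ hβL)
  have h1 := hβ s
  rw [hsβ] at h1
  have h2 : ((((ψ s : Kˣ) : K) : Qb)) = 1 := by
    have h3 : ((((ψ s : Kˣ) : K) : Qb) - 1) * β = 0 := by rw [sub_mul, one_mul, ← h1, sub_self]
    have h4 := (mul_eq_zero.mp h3).resolve_right hβ0
    exact sub_eq_zero.mp h4
  have h5 : ψ s = 1 := by
    apply Units.ext
    apply Subtype.ext
    exact h2
  exact zetaHom_eq_one p ζ hζp hζ (χ s) h5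

end KummerLevel

end Fermat.Agent.CFT.Fin
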