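import Mathlib
import Fermat.Prelude.Def_GroupCohomology_ContinuousUnramified
import Fermat.Agent.CFT.Fin.KummerLevel
import Fermat.Agent.S14.BridgeChar

set_option autoImplicit false

open groupCohomology ExtCitation

namespace Fermat.Agent.CFT.Fin

attribute [local instance] normal_Qb

section Cyclo

variable (p : ℕ) [hp : Fact p.Prime]

/-- A field generated by a `p`-th root of unity is unramified outside any `S ∋ p`. -/
theorem isUnramifiedOutside_adjoin_root (S : Finset Nat.Primes) (hpS : pPrime p ∈ S) (ζ : Qb)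
    (hζ : ζ ^ p = 1) : (IntermediateField.adjoin ℚ {ζ}).IsUnramifiedOutside S := by
  have hint : IsIntegral ℚ ζ := ((AlgebraicClosure.isAlgebraic ℚ).isAlgebraic ζ).isIntegral
  refine ⟨IntermediateField.adjoin.finiteDimensional hint, fun q hq A hA => ?_⟩
  rw [← IntermediateField.le_iff_le, IntermediateField.adjoin_le_iff, Set.singleton_subset_iff]
  rw [SetLike.mem_coe, IntermediateField.mem_fixedField_iff]
  intro g hg
  have hqp : (q : ℕ) ≠ p := by
    intro h
    apply hq
    have : q = pPrime p := Subtype.ext h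
    rw [this]
    exact hpS
  exact Fermat.Agent.S14.Bridge.inertia_fixes_root p q.2 hqp A hA g hg ζ hζ

end Cyclo

section Main

variable {p : ℕ} [hp : Fact p.Prime] (S : Finset Nat.Primes) (M : Rep (ZMod p) GQ)

/-- The `S`-unramified elements of `M`: those fixed by `G_E` for some `E` unramified outside
`S`. -/
def IsSUnram (m : M) : Prop :=
  ∃ E : IntermediateField ℚ Qb, E.IsUnramifiedOutside S ∧ ∀ s ∈ E.fixingSubgroup, M.ρ s m = m

variable {S M}

/-- The cocycle identity. -/
theorem cocycle_mul (c : cocycles₁ M) (g h : GQ) : c (g * h) = M.ρ g (c h) + c g :=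
  (mem_cocycles₁_iff (c : GQ → M)).mp c.2 g h

set_option linter.unusedSectionVars false in
/-- A level-constant cocycle vanishes on its level. -/
theorem cocycle_eq_zero_of_level (c : cocycles₁ M) {F : IntermediateField ℚ Qb}
    (h : ∀ g s, s ∈ F.fixingSubgroup → c (g * s) = c g) {s : GQ} (hs : s ∈ F.fixingSubgroup) :
    c s = 0 := by
  have h1 := h 1 s hs
  rw [one_mul, cocycles₁_map_one] at h1
  exact h1

/-- The values of an `S`-level cocycle are `S`-unramified. -/
theorem isSUnram_of_isLevelConstantS₁ (c : cocycles₁ M) (hc : IsLevelConstantS₁ S c) (g : GQ) :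
    IsSUnram S M (c g) := by
  obtain ⟨F, hF, h⟩ := hc
  have hNur := isUnramifiedOutside_normalClosure hF
  set N := IntermediateField.normalClosure ℚ F Qb with hN
  have hNnormal : Normal ℚ N := normalClosure.normal ℚ F Qb
  have hFN : F ≤ N := IntermediateField.le_normalClosure F
  refine ⟨N, hNur, fun s hs => ?_⟩
  have hsF : s ∈ F.fixingSubgroup := IntermediateField.fixingSubgroup_antitone hFN hs
  have hconj : g⁻¹ * s * g ∈ N.fixingSubgroup := by
    rw [IntermediateField.mem_fixingSubgroup_iff]
    intro x hx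
    have hgx : g x ∈ N := by
      have h1 := (IntermediateField.normal_iff_forall_map_le' (F := ℚ) (L := Qb) (K := N)).mp
        hNnormal g
      exact h1 ⟨x, hx, rfl⟩
    have h2 : s (g x) = g x := (IntermediateField.mem_fixingSubgroup_iff N s).mp hs _ hgx
    show g⁻¹ (s (g x)) = x
    rw [h2]
    exact g.symm_apply_apply x
  have h3 : c (s * g) = c g := by
    have h4 : s * g = g * (g⁻¹ * s * g) := by group
    rw [h4]
    exact h g _ (IntermediateField.fixingSubgroup_antitone hFN hconj)
  rw [cocycle_mul, cocycle_eq_zero_of_level c h hsF, add_zero] at h3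
  exact h3

variable (S M)

/-- A number field, unramified outside `S`, containing the `p`-th roots of unity and
trivialising the `S`-unramified part of `M`. -/
theorem exists_trivialising_field [Finite M] (hpS : pPrime p ∈ S) :
    ∃ K : IntermediateField ℚ Qb, K.IsUnramifiedOutside S ∧ (∃ ζ : Kˣ, IsPrimitiveRoot ζ p) ∧
      ∀ m : M, IsSUnram S M m → ∀ s ∈ K.fixingSubgroup, M.ρ s m = m := by
  classical
  let E : M → IntermediateField ℚ Qb := fun m => if h : IsSUnram S M m then h.choose else ⊥
  have hE : ∀ m, (E m).IsUnramifiedOutside S := by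
    intro m
    by_cases h : IsSUnram S M m
    · simp only [E, dif_pos h]
      exact h.choose_spec.1
    · simp only [E, dif_neg h]
      exact IntermediateField.isUnramifiedOutside_bot S
  have hEfin : ∀ m, FiniteDimensional ℚ (E m) := fun m => (hE m).1
  set K₁ : IntermediateField ℚ Qb := ⨆ m, E m with hK₁
  have hK₁ : K₁.IsUnramifiedOutside S := by
    refine ⟨inferInstance, fun q hq A hA => ?_⟩
    rw [← IntermediateField.le_iff_le]
    refine iSup_le fun m => ?_
    rw [IntermediateField.le_iff_le]
    exact (hE m).2 q hq A hA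
  have : NeZero ((p : ℕ) : ℚ) := ⟨Nat.cast_ne_zero.mpr hp.out.ne_zero⟩
  obtain ⟨ζ₀, hζ₀⟩ := HasEnoughRootsOfUnity.exists_primitiveRoot Qb p
  have hζur := isUnramifiedOutside_adjoin_root p S hpS ζ₀ hζ₀.pow_eq_one
  set K : IntermediateField ℚ Qb := K₁ ⊔ IntermediateField.adjoin ℚ {ζ₀} with hK
  have hζK : ζ₀ ∈ K := (le_sup_right : IntermediateField.adjoin ℚ {ζ₀} ≤ K)
    (IntermediateField.mem_adjoin_simple_self ℚ ζ₀)
  have hζ0 : ζ₀ ≠ 0 := hζ₀.ne_zero hp.out.ne_zero
  refine ⟨K, hK₁.sup hζur, ⟨Units.mk0 ⟨ζ₀, hζK⟩ (fun h => hζ0 (congrArg Subtype.val h)), ?_⟩,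
    fun m hm s hs => ?_⟩
  · rw [← IsPrimitiveRoot.coe_units_iff, Units.val_mk0]
    have hinj : Function.Injective (algebraMap K Qb) := (algebraMap K Qb).injective
    exact (IsPrimitiveRoot.map_iff_of_injective hinj).mp hζ₀
  · have hEm : E m = hm.choose := by simp only [E, dif_pos hm]
    have hle : E m ≤ K := (le_iSup E m).trans le_sup_left
    have hs' : s ∈ (E m).fixingSubgroup := IntermediateField.fixingSubgroup_antitone hle hs
    rw [hEm] at hs'
    exact hm.choose_spec.2 s hs'

/-- **Uniform level.** There is ONE number field `F₀`, unramified outside `S`, such that every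
`S`-level `1`-cocycle with values in `M` is constant on the cosets of `G_{F₀}`. -/
theorem exists_uniform_level (hpS : pPrime p ∈ S) [FiniteDimensional (ZMod p) M] :
    ∃ F₀ : IntermediateField ℚ Qb, F₀.IsUnramifiedOutside S ∧
      ∀ c : cocycles₁ M, IsLevelConstantS₁ S c →
        ∀ g s, s ∈ F₀.fixingSubgroup → c (g * s) = c g := by
  have hMfin : Finite M := Module.finite_of_finite (ZMod p)
  obtain ⟨K, hKS, ⟨ζ, hζ⟩, hKtriv⟩ := exists_trivialising_field S M hpS
  obtain ⟨F₀, hF₀ur, hKF₀, hlev⟩ := exists_kummer_level p S K hKS ζ hζ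
  refine ⟨F₀, hF₀ur, fun c hc g s hs => ?_⟩
  have hsK : s ∈ K.fixingSubgroup := IntermediateField.fixingSubgroup_antitone hKF₀ hs
  suffices h0 : c s = 0 by rw [cocycle_mul, h0, map_zero, zero_add]
  rw [← Module.forall_dual_apply_eq_zero_iff (ZMod p)]
  intro φ
  let χ : K.fixingSubgroup →* Multiplicative (ZMod p) :=
    { toFun := fun t => Multiplicative.ofAdd (φ (c (t : GQ)))
      map_one' := by
        show Multiplicative.ofAdd (φ (c (1 : GQ))) = 1
        rw [cocycles₁_map_one, map_zero]
        rfl
      map_mul' := by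
        intro t t'
        show Multiplicative.ofAdd (φ (c ((t : GQ) * (t' : GQ)))) = _
        rw [cocycle_mul, hKtriv _ (isSUnram_of_isLevelConstantS₁ c hc _) _ t.2, map_add,
          ofAdd_add, mul_comm] }
  obtain ⟨F, hF, h⟩ := hc
  have hχ : ∀ t : K.fixingSubgroup, (t : GQ) ∈ F.fixingSubgroup → χ t = 1 := by
    intro t ht
    show Multiplicative.ofAdd (φ (c (t : GQ))) = 1
    rw [cocycle_eq_zero_of_level c h ht, map_zero]
    rfl
  have h1 := hlev F hF χ hχ ⟨s, hsK⟩ hs
  exact Multiplicative.ofAdd.injective h1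

/-- **Finiteness of the `S`-level cocycles.** -/
theorem finite_levelCocyclesS₁ (hpS : pPrime p ∈ S) [FiniteDimensional (ZMod p) M] :
    Finite ↥(levelCocyclesS₁ S M) := by
  classical
  have hMfin : Finite M := Module.finite_of_finite (ZMod p)
  obtain ⟨F₀, hF₀ur, hlev⟩ := exists_uniform_level S M hpS
  have hF₀fin : FiniteDimensional ℚ F₀ := hF₀ur.1
  let res : GQ → (F₀ →ₐ[ℚ] Qb) := fun g => (g : Qb →ₐ[ℚ] Qb).comp F₀.val
  let Φ : ↥(levelCocyclesS₁ S M) → ((F₀ →ₐ[ℚ] Qb) → M) := fun c τ =>
    if h : ∃ g : GQ, res g = τ then (c : cocycles₁ M) h.choose else 0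
  have hΦ : Function.Injective Φ := by
    intro c c' hcc
    apply Subtype.ext
    apply cocycles₁_ext
    intro g
    have hex : ∃ g' : GQ, res g' = res g := ⟨g, rfl⟩
    have hg₀ : res hex.choose = res g := hex.choose_spec
    have hmem : g⁻¹ * hex.choose ∈ F₀.fixingSubgroup := by
      rw [IntermediateField.mem_fixingSubgroup_iff]
      intro x hx
      have h1 : hex.choose x = g x := DFunLike.congr_fun hg₀ (⟨x, hx⟩ : F₀)
      show g⁻¹ (hex.choose x) = x
      rw [h1]
      exact g.symm_apply_apply x
    have hkey : ∀ d : ↥(levelCocyclesS₁ S M),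
        (d : cocycles₁ M) hex.choose = (d : cocycles₁ M) g := by
      intro d
      have h2 := hlev (d : cocycles₁ M) d.2 g _ hmem
      rw [mul_inv_cancel_left] at h2
      exact h2
    have h3 := congrFun hcc (res g)
    simp only [Φ, dif_pos hex] at h3
    rw [← hkey c, ← hkey c']
    exact h3
  exact Finite.of_injective Φ hΦ

/-- **Finiteness of `H¹(G_S, M)`.** -/
theorem finite_continuousH1S (hpS : pPrime p ∈ S) [FiniteDimensional (ZMod p) M] :
    Finite ↥(continuousH1S S M) := by
  have h1 := finite_levelCocyclesS₁ S M hpS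
  have h2 : ((levelCocyclesS₁ S M).map (H1π M).hom : Set (H1 M)).Finite := by
    rw [Submodule.map_coe]
    exact (Set.toFinite _).image _
  exact h2.to_subtype

/-- **Finiteness of `H¹(G_S, M)`**, as a module. -/
theorem moduleFinite_continuousH1S (hpS : pPrime p ∈ S) [FiniteDimensional (ZMod p) M] :
    Module.Finite (ZMod p) ↥(continuousH1S S M) := by
  have := finite_continuousH1S S M hpS
  exact Module.Finite.of_finite

/-- Finiteness of `Ш¹_S(M)`. -/
theorem finite_sha₁ (hpS : pPrime p ∈ S) [FiniteDimensional (ZMod p) M] :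
    Finite ↥(sha₁ S M) := by
  have h1 := finite_continuousH1S S M hpS
  have hle : sha₁ S M ≤ continuousH1S S M := inf_le_left
  exact Finite.of_injective (Submodule.inclusion hle) (Submodule.inclusion_injective hle)

/-- Finiteness of `Ш¹_S(M)`, as a module. -/
theorem moduleFinite_sha₁ (hpS : pPrime p ∈ S) [FiniteDimensional (ZMod p) M] :
    Module.Finite (ZMod p) ↥(sha₁ S M) := by
  have := finite_sha₁ S M hpS
  exact Module.Finite.of_finite

end Main

end Fermat.Agent.CFT.Fin
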