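import Mathlib
import Fermat.Agent.CFT.Fin.KummerLevel
import Fermat.Agent.S05.Glue

/-!
# P3 / Fin: Kummer extensions with an `S`-Selmer radicand are unramified outside `S`

`Qb = ℚ̄`.  Let `S` be a finite set of primes, `n ≠ 0` an integer all of whose prime factors lie
in `S`, `K` a number field inside `Qb` which is unramified outside `S` in the sense of the Prelude
(the inertia subgroup of every valuation subring of `Qb` over a prime `q ∉ S` fixes `K`), and
`a ∈ Kˣ` such that `n ∣ ord_v(a)` for every prime `v` of `𝓞 K` not above `S`.  Then for every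
`β ∈ Qb` with `β ^ n = a` the field `K(β)` is again unramified outside `S`
(`isUnramifiedOutside_sup_adjoin_root`).  This is the converse of
`dvd_toAdd_valuationOfNeZero_of_pow_eq` of `Fin/Ram.lean`.

Consequences: elements of the `S`-Selmer group become `n`-th powers in an `S`-level
(`exists_level_pow_eq`); in particular ideal classes of `𝓞_{K,S}` killed by `n` capitulate in
`ℚ_S`, and the `S`-units of `ℚ_S` form an `n`-divisible group.
-/

set_option autoImplicit false

open IsDedekindDomain HeightOneSpectrum NumberField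

namespace Fermat.Agent.CFT.Fin

attribute [local instance] normal_Qb

section RootOfUnity

/-- A root of unity of order prime to the residue characteristic which is congruent to `1`
modulo the maximal ideal is `1`. -/
theorem eq_one_of_pow_eq_one_of_val_sub_lt (A : ValuationSubring Qb) (n : ℕ)
    (hn : A.valuation ((n : ℕ) : Qb) = 1) (ω : Qb) (hω : ω ^ n = 1)
    (hval : A.valuation (ω - 1) < 1) : ω = 1 := by
  have hn0 : n ≠ 0 := by
    rintro rfl
    rw [Nat.cast_zero, map_zero] at hn
    exact zero_ne_one hn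
  by_contra hne
  have hv1 : A.valuation ω = 1 := by
    have h1 : A.valuation ω ^ n = 1 := by rw [← map_pow, hω, map_one]
    exact (pow_eq_one_iff.mp h1).resolve_right hn0
  have hωA : ω ∈ A := (A.valuation_le_one_iff ω).mp hv1.le
  let ω' : A := ⟨ω, hωA⟩
  have hsum : (∑ j ∈ Finset.range n, ω' ^ j) = 0 := by
    have h3 : (ω' - 1) * (∑ j ∈ Finset.range n, ω' ^ j) = 0 := by
      rw [mul_comm, geom_sum_mul]
      apply Subtype.ext
      simp [ω', hω]
    have h4 : ω' - 1 ≠ 0 := by
      intro h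
      apply hne
      have := congrArg (Subtype.val) h
      simpa [ω', sub_eq_zero] using this
    exact (mul_eq_zero.mp h3).resolve_left h4
  have hdvd : ω' - 1 ∣ (0 : A) - (n : A) := by
    have h5 := Polynomial.sub_dvd_eval_sub ω' 1
      (∑ j ∈ Finset.range n, (Polynomial.X : Polynomial A) ^ j)
    simp only [Polynomial.eval_finsetSum, Polynomial.eval_pow, Polynomial.eval_X, one_pow,
      Finset.sum_const, Finset.card_range, nsmul_eq_mul, mul_one] at h5
    rw [hsum] at h5
    exact h5
  obtain ⟨w, hw⟩ := hdvd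
  have hnval : A.valuation ((n : ℕ) : Qb) ≤ A.valuation (ω - 1) := by
    have h6 : ((n : ℕ) : Qb) = -((ω - 1) * (w : Qb)) := by
      have := congrArg (Subtype.val) hw
      simp only [zero_sub] at this
      have h7 : ((-(n : A) : A) : Qb) = -((n : ℕ) : Qb) := by simp
      have h8 : (((ω' - 1) * w : A) : Qb) = (ω - 1) * (w : Qb) := by simp [ω']
      rw [h7, h8] at this
      rw [← this, neg_neg]
    rw [h6, Valuation.map_neg, map_mul]
    calc A.valuation (ω - 1) * A.valuation (w : Qb) ≤ A.valuation (ω - 1) * 1 :=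
          mul_le_mul' le_rfl ((A.valuation_le_one_iff _).mpr w.2)
      _ = A.valuation (ω - 1) := mul_one _
  rw [hn] at hnval
  exact absurd hval (not_lt.mpr hnval)

end RootOfUnity

section Main

open Fermat.Agent.Lib.InertiaGlue WithZero

variable (S : Finset Nat.Primes) (n : ℕ)

/-- The prime of `K` below a valuation subring over `q ∉ S` is not above `S`. -/
theorem primeBelow_notMem_primesAbove (K : IntermediateField ℚ Qb) (q : Nat.Primes) (hq : q ∉ S)
    (A : ValuationSubring Qb) (hA : A.LiesOverPrime (q : ℕ)) (v : HeightOneSpectrum (𝓞 K))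
    (hv : v.asIdeal = primeBelow K A) : v ∉ primesAbove K S := by
  rintro ⟨q', hq'S, hq'v⟩
  have hne : q ≠ q' := fun h => hq (h ▸ hq'S)
  have hqv : ((q : ℕ) : 𝓞 K) ∈ v.asIdeal := by
    rw [hv, mem_primeBelow]
    have hA' : ((q : ℕ) : Qb) ∈ A.nonunits := hA
    simpa using hA'
  have hcop : Nat.Coprime (q : ℕ) (q' : ℕ) :=
    (Nat.coprime_primes q.2 q'.2).mpr fun h => hne (Subtype.ext h)
  have hint : IsCoprime ((q : ℕ) : ℤ) ((q' : ℕ) : ℤ) := Nat.isCoprime_iff_coprime.mpr hcop
  obtain ⟨x, y, hxy⟩ := hint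
  have h1 : (1 : 𝓞 K) ∈ v.asIdeal := by
    have h2 : ((x : ℤ) : 𝓞 K) * ((q : ℕ) : 𝓞 K) + ((y : ℤ) : 𝓞 K) * ((q' : ℕ) : 𝓞 K) = 1 := by
      have := congrArg (fun z : ℤ => (z : 𝓞 K)) hxy
      simpa using this
    rw [← h2]
    exact v.asIdeal.add_mem (v.asIdeal.mul_mem_left _ hqv) (v.asIdeal.mul_mem_left _ hq'v)
  exact v.isPrime.ne_top ((Ideal.eq_top_iff_one _).mpr h1)

variable {S n}

/-- **Inertia fixes Kummer roots of `S`-Selmer elements.**  Let `n ≠ 0` have all its prime
factors in `S`, let `a ∈ Kˣ` satisfy `n ∣ ord_v(a)` for all primes `v` of `K` not above `S`, and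
let `β ^ n = a`.  If `g` lies in the inertia group of a valuation subring `A` of `Qb` over
`q ∉ S` and fixes `K`, then `g β = β`. -/
theorem inertia_fixes_pow_root (hn0 : n ≠ 0) (hnS : ∀ q : Nat.Primes, (q : ℕ) ∣ n → q ∈ S)
    (K : IntermediateField ℚ Qb) [NumberField K] (a : Kˣ)
    (ha : a ∈ selmerSubgroup (𝓞 K) K (primesAbove K S) n) (β : Qb)
    (hβ : β ^ n = ((a : K) : Qb)) (q : Nat.Primes) (hq : q ∉ S) (A : ValuationSubring Qb)
    (hA : A.LiesOverPrime (q : ℕ)) (g : GQ) (hg : g ∈ A.inertiaSubgroupIn ℚ)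
    (hgK : g ∈ K.fixingSubgroup) : g β = β := by
  -- the prime of `K` below `A`
  have hqK : ((q : ℕ) : 𝓞 K) ∈ primeBelow K A := by
    rw [mem_primeBelow]
    have hA' : ((q : ℕ) : Qb) ∈ A.nonunits := hA
    simpa using hA'
  have hneK : primeBelow K A ≠ ⊥ := by
    intro h0
    rw [h0, Ideal.mem_bot] at hqK
    exact (Nat.cast_ne_zero.mpr q.2.ne_zero) hqK
  let v : HeightOneSpectrum (𝓞 K) := ⟨primeBelow K A, inferInstance, hneK⟩
  have hv : ∀ y ∈ v.asIdeal, (((y : K) : Qb)) ∈ A.nonunits :=
    fun y hy => (mem_primeBelow K A y).mp hy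
  have hvS : v ∉ primesAbove K S := primeBelow_notMem_primesAbove S K q hq A hA v rfl
  obtain ⟨m, hm⟩ := ha v hvS
  obtain ⟨π, hπ⟩ := v.valuation_exists_uniformizer K
  have h1 := val_eq_zpow hv hπ a
  rw [hm] at h1
  have hπ0 : π ≠ 0 := by
    intro h0
    rw [h0, map_zero] at hπ
    exact (exp_ne_zero).symm hπ
  have hπQ : (π : Qb) ≠ 0 := by exact_mod_cast hπ0
  have hπA : A.valuation (π : Qb) ≠ 0 := (Valuation.ne_zero_iff _).mpr hπQ
  -- the scaling element `c = π ^ m ∈ K`
  set c : Qb := (π : Qb) ^ m with hc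
  have hc0 : c ≠ 0 := zpow_ne_zero m hπQ
  have hgπ : g (π : Qb) = (π : Qb) :=
    (IntermediateField.mem_fixingSubgroup_iff K g).mp hgK _ π.2
  have hgc : g c = c := by rw [hc, map_zpow₀, hgπ]
  have ha0 : ((a : K) : Qb) ≠ 0 := by
    have := a.ne_zero
    exact_mod_cast this
  have hβ0 : β ≠ 0 := by
    intro h0
    rw [h0, zero_pow hn0] at hβ
    exact ha0 hβ.symm
  -- `β c` is an `A`-unit
  have hval1 : A.valuation (β * c) = 1 := by
    have h2 : A.valuation (β * c) ^ n = 1 := by
      rw [← map_pow, mul_pow, hβ, map_mul, h1, hc, map_pow, map_zpow₀, ← zpow_natCast,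
        ← zpow_mul, ← zpow_add₀ hπA]
      have : -((n : ℤ) * m) + m * (n : ℤ) = 0 := by ring
      rw [this, zpow_zero]
    exact (pow_eq_one_iff.mp h2).resolve_right hn0
  have hβcA : β * c ∈ A := (A.valuation_le_one_iff _).mp hval1.le
  -- the root of unity `ω = g β / β`
  set ω : Qb := g β / β with hω
  have hgβ : g β = ω * β := by rw [hω, div_mul_cancel₀ _ hβ0]
  have hga : g ((a : K) : Qb) = ((a : K) : Qb) :=
    (IntermediateField.mem_fixingSubgroup_iff K g).mp hgK _ (a : K).2
  have hωn : ω ^ n = 1 := by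
    rw [hω, div_pow, ← map_pow, hβ, hga, div_self ha0]
  have hnon : A.valuation (g (β * c) - β * c) < 1 := by
    rw [← ValuationSubring.mem_nonunits_iff]
    exact Fermat.Agent.S05.Inertia.sub_mem_nonunits A hg hβcA
  have hval : A.valuation (ω - 1) < 1 := by
    have h2 : g (β * c) - β * c = (ω - 1) * (β * c) := by
      rw [map_mul, hgc, hgβ]
      ring
    rw [h2, map_mul, hval1, mul_one] at hnon
    exact hnon
  have hnval : A.valuation ((n : ℕ) : Qb) = 1 := by
    have h9 := (Fermat.Agent.S05.val_intCast_eq_one_iff (K := Qb) A q.2 hA (n : ℤ)).mpr (by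
      intro hdiv
      have : (q : ℕ) ∣ n := by exact_mod_cast hdiv
      exact hq (hnS q this))
    simpa using h9
  have hω1 := eq_one_of_pow_eq_one_of_val_sub_lt A n hnval ω hωn hval
  rw [hgβ, hω1, one_mul]

/-- **Kummer extensions with an `S`-Selmer radicand are unramified outside `S`.**  For `n ≠ 0`
with all prime factors in `S`, `K` unramified outside `S`, `a ∈ Kˣ` with `n ∣ ord_v(a)` for all
primes `v` of `K` not above `S`, and `β ^ n = a`: the field `K(β)` is unramified outside `S`. -/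
theorem isUnramifiedOutside_sup_adjoin_root (hn0 : n ≠ 0)
    (hnS : ∀ q : Nat.Primes, (q : ℕ) ∣ n → q ∈ S) (K : IntermediateField ℚ Qb)
    (hKS : K.IsUnramifiedOutside S) (a : Kˣ)
    (ha : haveI : FiniteDimensional ℚ K := hKS.1
      haveI : NumberField K := ⟨⟩
      a ∈ selmerSubgroup (𝓞 K) K (primesAbove K S) n)
    (β : Qb) (hβ : β ^ n = ((a : K) : Qb)) :
    (K ⊔ IntermediateField.adjoin ℚ {β}).IsUnramifiedOutside S := by
  have hKfin : FiniteDimensional ℚ K := hKS.1
  have hKnf : NumberField K := ⟨⟩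
  have hint : IsIntegral ℚ β := ((AlgebraicClosure.isAlgebraic ℚ).isAlgebraic β).isIntegral
  have hfin : FiniteDimensional ℚ (IntermediateField.adjoin ℚ {β}) :=
    IntermediateField.adjoin.finiteDimensional hint
  refine ⟨IntermediateField.finiteDimensional_sup K _, fun q hq A hA => ?_⟩
  rw [IntermediateField.fixingSubgroup_sup]
  refine le_inf (hKS.2 q hq A hA) ?_
  rw [← IntermediateField.le_iff_le, IntermediateField.adjoin_le_iff, Set.singleton_subset_iff,
    SetLike.mem_coe, IntermediateField.mem_fixedField_iff]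
  intro g hg
  exact inertia_fixes_pow_root hn0 hnS K a ha β hβ q hq A hA g hg (hKS.2 q hq A hA hg)

/-- **Selmer elements are `n`-th powers in an `S`-level** (Kummer capitulation, element form):
for `a ∈ Kˣ` with `n ∣ ord_v(a)` off `S` there is a finite extension `L ⊇ K`, unramified outside
`S`, in which `a` is an `n`-th power. -/
theorem exists_level_pow_eq (hn0 : n ≠ 0) (hnS : ∀ q : Nat.Primes, (q : ℕ) ∣ n → q ∈ S)
    (K : IntermediateField ℚ Qb) (hKS : K.IsUnramifiedOutside S) (a : Kˣ)
    (ha : haveI : FiniteDimensional ℚ K := hKS.1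
      haveI : NumberField K := ⟨⟩
      a ∈ selmerSubgroup (𝓞 K) K (primesAbove K S) n) :
    ∃ L : IntermediateField ℚ Qb, L.IsUnramifiedOutside S ∧ K ≤ L ∧
      ∃ b : Qb, b ∈ L ∧ b ^ n = ((a : K) : Qb) := by
  obtain ⟨β, hβ⟩ := IsAlgClosed.exists_pow_nat_eq (((a : K) : Qb)) (Nat.pos_of_ne_zero hn0)
  exact ⟨K ⊔ IntermediateField.adjoin ℚ {β},
    isUnramifiedOutside_sup_adjoin_root hn0 hnS K hKS a ha β hβ, le_sup_left, β,
    (le_sup_right : IntermediateField.adjoin ℚ {β} ≤ _)
      (IntermediateField.mem_adjoin_simple_self ℚ β), hβ⟩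

end Main

end Fermat.Agent.CFT.Fin
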