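import Fermat.Agent.CFT.Top.Plan
import Fermat.Agent.CFT.Fin.H1Finite

/-!
# P3 / Fin: the provider of `Top.Plan.H1Fin`

`Ш¹(M')` inside `H¹(G_S, M')` is finite, for every finite-dimensional `M` and `S ∋ p`
(no smoothness or ramification hypothesis on `M` is needed).
-/

set_option autoImplicit false

open CategoryTheory Module groupCohomology ExtCitation

namespace Fermat.Agent.CFT.Fin

variable {p : ℕ} [Fact p.Prime] (S : Finset Nat.Primes) (M : Rep.{0} (ZMod p) GQ)

/-- The provider of `Top.Plan.H1Fin`. -/
theorem h1Fin (hpS : pPrime p ∈ S) [FiniteDimensional (ZMod p) M] :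
    Fermat.Agent.CFT.Top.Plan.H1Fin S M := by
  have : FiniteDimensional (ZMod p) (M.dualTwist (cycloChar p)) := inferInstance
  have h := finite_continuousH1S S (M.dualTwist (cycloChar p)) hpS
  exact Finite.of_injective (fun x : Fermat.Agent.CFT.Top.sha₁In S (M.dualTwist (cycloChar p)) =>
    (x : continuousH1S S (M.dualTwist (cycloChar p)))) Subtype.val_injective

end Fermat.Agent.CFT.Fin
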