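import Fermat.Agent.CFT.Top.DualPlan
import Fermat.Agent.CFT.Fin.H1Finite
import Fermat.Agent.CFT.Level.SLevels

/-!
# P3 / Fin: the provider of `Top.Plan.UniformLevel`

Every class of `H¹(G_S, M)` has a cocycle representative which is constant on the cosets of
`Gal(ℚ̄/K₀)` for ONE normal `S`-level `K₀` (the Galois closure of the uniform level of
`Fin/H1Finite`).  No smoothness or ramification hypothesis on `M` is needed.
-/

set_option autoImplicit false

open CategoryTheory Module groupCohomology ExtCitation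

namespace Fermat.Agent.CFT.Fin

variable {p : ℕ} [Fact p.Prime] (S : Finset Nat.Primes) (M : Rep.{0} (ZMod p) GQ)

/-- A NORMAL uniform level: one normal `S`-level `K₀` such that every `S`-level `1`-cocycle with
values in `M` is constant on the cosets of `G_{K₀}`. -/
theorem exists_uniform_nLevel (hpS : pPrime p ∈ S) [FiniteDimensional (ZMod p) M] :
    ∃ K₀ : IntermediateField ℚ Qb, Fermat.Agent.CFT.Top.IsNLevel S K₀ ∧
      ∀ c : cocycles₁ M, IsLevelConstantS₁ S c →
        ∀ g s, s ∈ K₀.fixingSubgroup → c (g * s) = c g := by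
  obtain ⟨F₀, hF₀ur, hlev⟩ := exists_uniform_level S M hpS
  have hF₀fin : FiniteDimensional ℚ F₀ := hF₀ur.1
  obtain ⟨K₀, -, -, hle, hnormal, -, hur⟩ := Fermat.Agent.CFT.Level.exists_galois_level F₀
  exact ⟨K₀, ⟨hur S hF₀ur, hnormal⟩, fun c hc g s hs => hlev c hc g s (hle hs)⟩

/-- The provider of `Top.Plan.UniformLevel`. -/
theorem uniformLevel (hpS : pPrime p ∈ S) [FiniteDimensional (ZMod p) M] :
    Fermat.Agent.CFT.Top.Plan.UniformLevel S M := by
  obtain ⟨K₀, hK₀, hlev⟩ := exists_uniform_nLevel S M hpS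
  refine ⟨K₀, hK₀, fun x hx => ?_⟩
  obtain ⟨c, hc, rfl⟩ := hx
  exact ⟨c, hlev c hc, rfl⟩

end Fermat.Agent.CFT.Fin
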