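import Mathlib
import Fermat.Agent.CFT.Fin.Ram
import Fermat.Agent.CFT.Global.Defs
import Fermat.Agent.CFT.Glob.UnramReduced

set_option autoImplicit false

/-!
# Dictionary: unramified outside `S` in the Prelude sense vs. in the Global sense

The Prelude's `IntermediateField.IsUnramifiedOutside` (inertia groups of valuation subrings of
`Q̄` over `q ∉ S` fix the field) is compared with `Global.UnramOutside`
(`𝓞 K ⧸ (q)` is reduced for `q ∉ S`).
-/

open IsDedekindDomain HeightOneSpectrum NumberField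

namespace Fermat.Agent.CFT.Fin

open Fermat.Agent.Lib.InertiaGlue WithZero

attribute [local instance] normal_Qb

/-- If every inertia group over `q` fixes the finite Galois extension `N` of `ℚ`, then
`𝓞 N ⧸ (q)` is reduced. -/
theorem unramAt_of_inertia_le_galois (N : IntermediateField ℚ Qb) [NumberField N]
    [IsGalois ℚ N] (q : ℕ) (hq : q.Prime)
    (h : ∀ A : ValuationSubring Qb, A.LiesOverPrime q →
      A.inertiaSubgroupIn ℚ ≤ N.fixingSubgroup) :
    Global.UnramAt N q := by
  unfold Global.UnramAt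
  rw [← Ideal.isRadical_iff_quotient_reduced]
  apply Fermat.Agent.CFT.Glob.UnramReduced.isRadical_of_forall_not_le_sq
  intro P hP hle
  have hq0 : ((q : ℕ) : 𝓞 N) ≠ 0 := Nat.cast_ne_zero.mpr hq.ne_zero
  have hqP2 : ((q : ℕ) : 𝓞 N) ∈ P ^ 2 := hle (Ideal.mem_span_singleton_self _)
  have hqP : ((q : ℕ) : 𝓞 N) ∈ P := Ideal.pow_le_self two_ne_zero hqP2
  obtain ⟨A, hA⟩ := exists_valuationSubring_over N P hP.ne_top
  have hAq : A.LiesOverPrime q := by
    have h1 := hA _ hqP
    show ((q : ℕ) : Qb) ∈ A.nonunits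
    simpa using h1
  have hPle : P ≤ primeBelow N A := fun y hy => (mem_primeBelow N A y).mpr (hA y hy)
  have hPeq : P = primeBelow N A :=
    hP.eq_of_le (Ideal.IsPrime.ne_top inferInstance) hPle
  have hP0 : P ≠ ⊥ := by
    intro h0
    rw [h0, Ideal.mem_bot] at hqP
    exact hq0 hqP
  let v : HeightOneSpectrum (𝓞 N) := ⟨P, hP.isPrime, hP0⟩
  have hunif : v.valuation N ((q : ℕ) : N) = exp (-1 : ℤ) :=
    valuation_natCast_eq_exp_neg_one N A q hq hAq (h A hAq) v hPeq
  have h2 : v.intValuation ((q : ℕ) : 𝓞 N) ≤ exp (-((2 : ℕ) : ℤ)) :=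
    (v.intValuation_le_pow_iff_mem _ 2).mpr hqP2
  have hval : v.valuation N ((q : ℕ) : N) = v.intValuation ((q : ℕ) : 𝓞 N) := by
    rw [← valuation_of_algebraMap (K := N)]
    simp
  rw [hval] at hunif
  rw [hunif, exp_le_exp] at h2
  norm_num at h2

/-- Reducedness of `𝓞 K ⧸ (q)` descends to subfields. -/
theorem unramAt_of_le {K N : IntermediateField ℚ Qb} [NumberField K] [NumberField N]
    (hKN : K ≤ N) (q : ℕ) (hq : q.Prime) (h : Global.UnramAt N q) : Global.UnramAt K q := by
  unfold Global.UnramAt at h ⊢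
  rw [← Ideal.isRadical_iff_quotient_reduced] at h ⊢
  have hq0 : ((q : ℕ) : Qb) ≠ 0 := Nat.cast_ne_zero.mpr hq.ne_zero
  -- lifting integers of `K` to integers of `N`
  have lift : ∀ x : 𝓞 K, ∃ x' : 𝓞 N, (((x' : N) : Qb)) = (((x : K) : Qb)) := by
    intro x
    have hx : IsIntegral ℤ (⟨((x : K) : Qb), hKN (x : K).2⟩ : N) := by
      have h1 : IsIntegral ℤ (x : K) := RingOfIntegers.isIntegral_coe x
      have h2 : IsIntegral ℤ (((x : K) : Qb)) := h1.map (IsScalarTower.toAlgHom ℤ K Qb)
      exact (isIntegral_algHom_iff (IsScalarTower.toAlgHom ℤ N Qb)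
        (algebraMap N Qb).injective).mp h2
    obtain ⟨x', hx'⟩ := (IsIntegralClosure.isIntegral_iff (A := 𝓞 N)).mp hx
    exact ⟨x', congrArg Subtype.val hx'⟩
  intro x hx
  obtain ⟨n, hn⟩ := hx
  obtain ⟨z, hz⟩ := Ideal.mem_span_singleton'.mp hn
  obtain ⟨x', hx'⟩ := lift x
  obtain ⟨z', hz'⟩ := lift z
  have h1 : x' ^ n ∈ Ideal.span {((q : ℕ) : 𝓞 N)} := by
    rw [Ideal.mem_span_singleton']
    refine ⟨z', ?_⟩
    apply RingOfIntegers.coe_injective
    apply (algebraMap N Qb).injective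
    have h2 : (((z : K) : Qb)) * (q : Qb) = (((x : K) : Qb)) ^ n := by
      have h5 := congrArg (fun t : 𝓞 K => (((t : K) : Qb))) hz
      push_cast at h5
      exact h5
    simp only [map_mul, map_pow, map_natCast]
    show (((z' : N) : Qb)) * (q : Qb) = (((x' : N) : Qb)) ^ n
    rw [hz', hx']
    exact h2
  have h3 : x' ∈ Ideal.span {((q : ℕ) : 𝓞 N)} := h ⟨n, h1⟩
  obtain ⟨y, hy⟩ := Ideal.mem_span_singleton'.mp h3
  -- `y = x / q` lies in `K` and is integral
  have hyQ : (((y : N) : Qb)) * (q : Qb) = (((x : K) : Qb)) := by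
    have h2 := congrArg (fun t : 𝓞 N => (((t : N) : Qb))) hy
    push_cast at h2
    rw [← hx']
    exact h2
  have hyK : (((y : N) : Qb)) ∈ K := by
    have h4 : (((y : N) : Qb)) = (((x : K) : Qb)) / (q : Qb) := by
      rw [← hyQ, mul_div_cancel_right₀ _ hq0]
    rw [h4]
    exact K.div_mem (x : K).2 (natCast_mem K q)
  have hyint : IsIntegral ℤ (⟨((y : N) : Qb), hyK⟩ : K) := by
    have h1 : IsIntegral ℤ (y : N) := RingOfIntegers.isIntegral_coe y
    have h2 : IsIntegral ℤ (((y : N) : Qb)) := h1.map (IsScalarTower.toAlgHom ℤ N Qb)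
    exact (isIntegral_algHom_iff (IsScalarTower.toAlgHom ℤ K Qb)
      (algebraMap K Qb).injective).mp h2
  obtain ⟨y₀, hy₀⟩ := (IsIntegralClosure.isIntegral_iff (A := 𝓞 K)).mp hyint
  rw [Ideal.mem_span_singleton']
  refine ⟨y₀, ?_⟩
  apply RingOfIntegers.coe_injective
  apply (algebraMap K Qb).injective
  have hy₀' : (((y₀ : K) : Qb)) = (((y : N) : Qb)) := congrArg Subtype.val hy₀
  simp only [map_mul, map_natCast]
  show (((y₀ : K) : Qb)) * (q : Qb) = (((x : K) : Qb))
  rw [hy₀', hyQ]

/-- **Dictionary (Prelude ⟹ Global).** A field unramified outside `S` in the sense of the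
Prelude is unramified outside `S` in the sense of `Global.UnramOutside`. -/
theorem unramOutside_of_isUnramifiedOutside {S : Finset Nat.Primes}
    {K : IntermediateField ℚ Qb} [NumberField K] (hK : K.IsUnramifiedOutside S) :
    Global.UnramOutside S K := by
  intro q hq
  have hNur := isUnramifiedOutside_normalClosure hK
  have hKfin : FiniteDimensional ℚ K := hK.1
  set N := IntermediateField.normalClosure ℚ K Qb with hN
  have hNfin : FiniteDimensional ℚ N := hNur.1
  have hNnf : NumberField N := ⟨⟩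
  have hNnormal : Normal ℚ N := normalClosure.normal ℚ K Qb
  have hNgal : IsGalois ℚ N := ⟨⟩
  exact unramAt_of_le (N := N) (IntermediateField.le_normalClosure K) q q.2
    (unramAt_of_inertia_le_galois N q q.2 (fun A hA => hNur.2 q hq A hA))

/-- If `𝓞 K ⧸ (q)` is reduced, every inertia group over `q` fixes `K`. -/
theorem inertia_le_of_unramAt (K : IntermediateField ℚ Qb) [NumberField K] (q : ℕ)
    (hq : q.Prime) (h : Global.UnramAt K q) (A : ValuationSubring Qb)
    (hA : A.LiesOverPrime q) : A.inertiaSubgroupIn ℚ ≤ K.fixingSubgroup := by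
  intro σ hσ
  have hσd := Fermat.Agent.S05.Inertia.mem_decomp_of_mem_inertiaIn A hσ
  -- the Galois closure
  have hKfin : FiniteDimensional ℚ K := inferInstance
  set N := IntermediateField.normalClosure ℚ K Qb with hN
  have hNfin : FiniteDimensional ℚ N := inferInstance
  have hNnf : NumberField N := ⟨⟩
  have hNnormal : Normal ℚ N := normalClosure.normal ℚ K Qb
  have hKN : K ≤ N := IntermediateField.le_normalClosure K
  -- the two embeddings of `K` into `N`
  let f₁ : K →+* N := (IntermediateField.inclusion hKN).toRingHom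
  let f₂ : K →+* N := ((σ.restrictNormal N : N ≃ₐ[ℚ] N) : N →+* N).comp f₁
  have hf₁ : ∀ x : K, ((f₁ x : N) : Qb) = (x : Qb) := fun x => rfl
  have hf₂ : ∀ x : K, ((f₂ x : N) : Qb) = σ (x : Qb) := by
    intro x
    exact AlgEquiv.restrictNormal_commutes σ N (f₁ x)
  let φ₁ : 𝓞 K →+* 𝓞 N := RingOfIntegers.mapRingHom f₁
  let φ₂ : 𝓞 K →+* 𝓞 N := RingOfIntegers.mapRingHom f₂
  have hφ₁ : ∀ x : 𝓞 K, (((φ₁ x : 𝓞 N) : N) : Qb) = (((x : K) : Qb)) := fun x => hf₁ x
  have hφ₂ : ∀ x : 𝓞 K, (((φ₂ x : 𝓞 N) : N) : Qb) = σ (((x : K) : Qb)) := fun x => hf₂ x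
  -- the primes below `A`
  set P := primeBelow K A with hP
  set 𝔓 := primeBelow N A with h𝔓
  have hqP : ((q : ℕ) : 𝓞 K) ∈ P := by
    rw [hP, mem_primeBelow]
    have hA' : ((q : ℕ) : Qb) ∈ A.nonunits := hA
    simpa using hA'
  have hP₁ : P = 𝔓.comap φ₁ := by
    ext x
    rw [Ideal.mem_comap, hP, h𝔓, mem_primeBelow, mem_primeBelow]
    show _ ↔ (((φ₁ x : 𝓞 N) : N) : Qb) ∈ A.nonunits
    rw [hφ₁]
  have hmem : ∀ x : 𝓞 K, (((x : K) : Qb)) ∈ A :=
    fun x => mem_of_isIntegral A
      ((RingOfIntegers.isIntegral_coe x).map (IsScalarTower.toAlgHom ℤ K Qb))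
  have hP₂ : P = 𝔓.comap φ₂ := by
    ext x
    rw [Ideal.mem_comap, hP, h𝔓, mem_primeBelow, mem_primeBelow]
    show _ ↔ (((φ₂ x : 𝓞 N) : N) : Qb) ∈ A.nonunits
    rw [hφ₂]
    rw [ValuationSubring.mem_nonunits_iff, ValuationSubring.mem_nonunits_iff]
    have h1 := Fermat.Agent.S05.Inertia.valuation_lt_iff_apply A hσd (((x : K) : Qb)) 1
    rw [map_one, map_one] at h1
    exact h1.symm
  -- unramifiedness at `P`
  have hun : Algebra.IsUnramifiedAt ℤ P :=
    (Fermat.Agent.CFT.Glob.UnramReduced.isReduced_quotient_span_iff_isUnramifiedAt K q hq).mp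
      h P hqP
  let g₁ : Localization.AtPrime P →ₐ[ℤ] Localization.AtPrime 𝔓 :=
    { toRingHom := Localization.localRingHom P 𝔓 φ₁ hP₁
      commutes' := fun n => by
        rw [eq_intCast, eq_intCast]
        exact map_intCast (Localization.localRingHom P 𝔓 φ₁ hP₁) n }
  let g₂ : Localization.AtPrime P →ₐ[ℤ] Localization.AtPrime 𝔓 :=
    { toRingHom := Localization.localRingHom P 𝔓 φ₂ hP₂
      commutes' := fun n => by
        rw [eq_intCast, eq_intCast]
        exact map_intCast (Localization.localRingHom P 𝔓 φ₂ hP₂) n }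
  have hI : ⨅ i, (IsLocalRing.maximalIdeal (Localization.AtPrime 𝔓)) ^ i = ⊥ :=
    Ideal.iInf_pow_eq_bot_of_isLocalRing _ (IsLocalRing.maximalIdeal.isMaximal _).ne_top
  have key : g₁ = g₂ := by
    refine Algebra.FormallyUnramified.ext_of_iInf _ hI ?_
    intro x
    have hcomp : (Ideal.Quotient.mk (IsLocalRing.maximalIdeal (Localization.AtPrime 𝔓))).comp
        (Localization.localRingHom P 𝔓 φ₁ hP₁) =
        (Ideal.Quotient.mk (IsLocalRing.maximalIdeal (Localization.AtPrime 𝔓))).comp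
        (Localization.localRingHom P 𝔓 φ₂ hP₂) := by
      apply IsLocalization.ringHom_ext P.primeCompl
      ext a
      simp only [RingHom.coe_comp, Function.comp_apply, Localization.localRingHom_to_map]
      rw [Ideal.Quotient.eq, ← map_sub, IsLocalization.AtPrime.to_map_mem_maximal_iff _ 𝔓]
      rw [h𝔓, mem_primeBelow]
      have hsub := Fermat.Agent.S05.Inertia.sub_mem_nonunits A hσ (hmem a)
      have e : (((algebraMap (𝓞 N) N (φ₁ a - φ₂ a) : N)) : Qb) =
          -(σ (((a : K) : Qb)) - (((a : K) : Qb))) := by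
        rw [map_sub]
        show (((φ₁ a : 𝓞 N) : N) : Qb) - (((φ₂ a : 𝓞 N) : N) : Qb) = _
        rw [hφ₁, hφ₂]
        ring
      rw [e, ValuationSubring.mem_nonunits_iff, Valuation.map_neg,
        ← ValuationSubring.mem_nonunits_iff]
      exact hsub
    exact RingHom.congr_fun hcomp x
  -- conclusion on integers
  have hint : ∀ a : 𝓞 K, σ (((a : K) : Qb)) = (((a : K) : Qb)) := by
    intro a
    have h1 := AlgHom.congr_fun key (algebraMap (𝓞 K) (Localization.AtPrime P) a)
    have h2 : algebraMap (𝓞 N) (Localization.AtPrime 𝔓) (φ₁ a) =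
        algebraMap (𝓞 N) (Localization.AtPrime 𝔓) (φ₂ a) := by
      have e1 : g₁ (algebraMap (𝓞 K) (Localization.AtPrime P) a) =
          algebraMap (𝓞 N) (Localization.AtPrime 𝔓) (φ₁ a) :=
        Localization.localRingHom_to_map P 𝔓 φ₁ hP₁ a
      have e2 : g₂ (algebraMap (𝓞 K) (Localization.AtPrime P) a) =
          algebraMap (𝓞 N) (Localization.AtPrime 𝔓) (φ₂ a) :=
        Localization.localRingHom_to_map P 𝔓 φ₂ hP₂ a
      rw [← e1, ← e2, h1]
    have h3 : φ₁ a = φ₂ a :=
      IsLocalization.injective (Localization.AtPrime 𝔓) 𝔓.primeCompl_le_nonZeroDivisors h2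
    have h4 : (((φ₁ a : 𝓞 N) : N) : Qb) = (((φ₂ a : 𝓞 N) : N) : Qb) := by rw [h3]
    rw [hφ₁, hφ₂] at h4
    exact h4.symm
  -- conclusion on `K`
  rw [IntermediateField.mem_fixingSubgroup_iff]
  intro x hx
  obtain ⟨a, b, hb, hab⟩ := IsFractionRing.div_surjective (A := 𝓞 K) (⟨x, hx⟩ : K)
  have hx' : x = (((a : K) : Qb)) / (((b : K) : Qb)) := by
    have h5 : (((algebraMap (𝓞 K) K a / algebraMap (𝓞 K) K b : K)) : Qb) = x := by rw [hab]
    rw [← h5]
    push_cast
    rfl
  rw [hx', map_div₀, hint a, hint b]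

/-- **Dictionary (Global ⟹ Prelude).** -/
theorem isUnramifiedOutside_of_unramOutside {S : Finset Nat.Primes}
    {K : IntermediateField ℚ Qb} [NumberField K] (h : Global.UnramOutside S K) :
    K.IsUnramifiedOutside S :=
  ⟨inferInstance, fun q hq A hA => inertia_le_of_unramAt K q q.2 (h q hq) A hA⟩

/-- **Dictionary.** The Prelude's and the Global notion of "unramified outside `S`" agree. -/
theorem isUnramifiedOutside_iff_unramOutside {S : Finset Nat.Primes}
    {K : IntermediateField ℚ Qb} [NumberField K] :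
    K.IsUnramifiedOutside S ↔ Global.UnramOutside S K :=
  ⟨unramOutside_of_isUnramifiedOutside, isUnramifiedOutside_of_unramOutside⟩

/-- `Global.UnramAt` is invariant under field isomorphisms. -/
theorem unramAt_of_ringEquiv {L L' : Type} [Field L] [NumberField L] [Field L'] [NumberField L']
    (e : L ≃+* L') (q : ℕ) (h : Global.UnramAt L q) : Global.UnramAt L' q := by
  unfold Global.UnramAt at h ⊢
  rw [← Ideal.isRadical_iff_quotient_reduced] at h ⊢
  intro x hx
  obtain ⟨n, hn⟩ := hx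
  obtain ⟨z, hz⟩ := Ideal.mem_span_singleton'.mp hn
  set E := RingOfIntegers.mapRingEquiv e with hE
  have h1 : (E.symm x) ^ n ∈ Ideal.span {((q : ℕ) : 𝓞 L)} := by
    rw [Ideal.mem_span_singleton']
    refine ⟨E.symm z, ?_⟩
    rw [← map_pow, ← hz, map_mul, map_natCast]
  obtain ⟨y, hy⟩ := Ideal.mem_span_singleton'.mp (h ⟨n, h1⟩)
  rw [Ideal.mem_span_singleton']
  refine ⟨E y, ?_⟩
  have h2 := congrArg E hy
  rw [map_mul, map_natCast, RingEquiv.apply_symm_apply] at h2
  exact h2

/-- `Global.UnramOutside` is invariant under field isomorphisms. -/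
theorem unramOutside_of_ringEquiv {S : Finset Nat.Primes} {L L' : Type} [Field L]
    [NumberField L] [Field L'] [NumberField L'] (e : L ≃+* L') (h : Global.UnramOutside S L) :
    Global.UnramOutside S L' :=
  fun q hq => unramAt_of_ringEquiv e q (h q hq)

/-- An abstract number field `L'` containing (via `f`) a subfield `F` of `Q̄` can be realised
inside `Q̄` over `F`. -/
theorem exists_intermediateField_ringEquiv (F : IntermediateField ℚ Qb) (L' : Type) [Field L']
    [NumberField L'] (f : F →+* L') :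
    ∃ (K' : IntermediateField ℚ Qb) (e : L' ≃+* K'), F ≤ K' ∧
      ∀ x : F, ((e (f x) : K') : Qb) = (x : Qb) := by
  let _ : Algebra F L' := f.toAlgebra
  have : IsScalarTower ℚ F L' := IsScalarTower.of_algebraMap_eq (fun x => by
    rw [eq_ratCast, eq_ratCast, map_ratCast])
  have : Algebra.IsAlgebraic ℚ L' := Algebra.IsAlgebraic.of_finite ℚ L'
  have : Algebra.IsAlgebraic F L' := Algebra.IsAlgebraic.tower_top (K := ℚ) F
  let ψ : L' →ₐ[F] Qb := IsAlgClosed.lift
  let ψ₀ : L' →ₐ[ℚ] Qb := ψ.restrictScalars ℚ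
  refine ⟨ψ₀.fieldRange, (AlgEquiv.ofInjectiveField ψ₀).toRingEquiv, ?_, ?_⟩
  · intro x hx
    refine ⟨f ⟨x, hx⟩, ?_⟩
    exact ψ.commutes ⟨x, hx⟩
  · intro x
    exact ψ.commutes x

/-- **From Global to Top.** An abstract number field `L'` over a subfield `F` of `Q̄` which is
unramified outside `S` in the Global sense is realised by a subfield of `Q̄` containing `F` and
unramified outside `S` in the sense of the Prelude. -/
theorem exists_level_of_unramOutside {S : Finset Nat.Primes} (F : IntermediateField ℚ Qb)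
    (L' : Type) [Field L'] [NumberField L'] (f : F →+* L') (h : Global.UnramOutside S L') :
    ∃ (K' : IntermediateField ℚ Qb) (e : L' ≃+* K'), F ≤ K' ∧ K'.IsUnramifiedOutside S ∧
      ∀ x : F, ((e (f x) : K') : Qb) = (x : Qb) := by
  obtain ⟨K', e, hFK, he⟩ := exists_intermediateField_ringEquiv F L' f
  have : FiniteDimensional ℚ K' :=
    (e.toRatAlgEquiv.toLinearEquiv).finiteDimensional
  have : NumberField K' := ⟨⟩
  refine ⟨K', e, hFK, ?_, he⟩
  exact isUnramifiedOutside_of_unramOutside (unramOutside_of_ringEquiv e h)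

end Fermat.Agent.CFT.Fin
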